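/-
S48, block BB/T (multiplicative Hecke operators for `±Γ₁(M)`; architect helper25).
Generic algebra: for two embeddings `α β : F → F'` of function fields of curves, the operator
`u ↦ Norm_α (β u)` preserves the elements whose divisor is divisible by `n`.
(Generic version of `GAL/E/KumHecke.lean`.)
-/
import Fermat.Agent.S37.HeckeInputs.Main

set_option autoImplicit false

namespace Fermat.Agent.S48.BB.T

open AlgebraicCurve Fermat.Agent.S24 Fermat.Agent.S24.FF Fermat.Agent.S37.HeckeInputs

variable {K F F' : Type*} [Field K] [IsAlgClosed K] [CharZero K] [Field F] [Field F']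
  [Algebra K F] [Algebra K F'] [IsFF1 K F] [IsFF1 K F']

/-- divisibility of the divisor of a norm -/
theorem dvd_ord_norm' [Algebra F F'] [IsScalarTower K F F'] [Module.Finite F F'] (n : ℤ) (y : F')
    (hy : ∀ w : Place K F', n ∣ w.ord y) (v : Place K F) : n ∣ v.ord (Algebra.norm F y) := by
  rcases eq_or_ne y 0 with rfl | hy0
  · simp
  have : HasPrincipalDivisors K F' := hasPrincipalDivisors
  rw [ord_norm v y hy0]
  exact Finset.dvd_sum fun w _ => hy w

omit [IsFF1 K F] [CharZero K] [IsAlgClosed K] in
/-- divisibility of the divisor of a pull-back -/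
theorem dvd_ord_map (β : F →ₐ[K] F') (x : F) (hx : Transcendental K x) (n : ℤ) (u : F)
    (hu : ∀ v : Place K F, n ∣ v.ord u) (w : Place K F') : n ∣ w.ord (β u) := by
  rw [Place.ord_restrictAlong β (isIntegral_of_finiteAlong β (finiteAlong β x hx)) w u]
  exact Dvd.dvd.mul_left (hu _) _

/-- `u ↦ Norm_α (β u)` preserves the elements whose divisor is divisible by `n`. -/
theorem dvd_ord_normAlong (α β : F →ₐ[K] F') (x : F) (hx : Transcendental K x) (n : ℤ) (u : F)
    (hu : ∀ v : Place K F, n ∣ v.ord u) (v : Place K F) : n ∣ v.ord (normAlong α (β u)) := by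
  let _ := algebraAlong α
  have h1 : IsScalarTower K F F' := isScalarTower_along α
  have h2 : Module.Finite F F' := finiteAlong α x hx
  exact dvd_ord_norm' (K := K) (F := F) (F' := F') n (β u) (dvd_ord_map β x hx n u hu) v

end Fermat.Agent.S48.BB.T
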