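/-
S48, block BB/T (architect helper25).  TASK BB-T-2 (proofs: helper289).
Admissible functions composed with an integral matrix of positive determinant are admissible.

PROOF of `IsAdm.comp_gl`.  Let `A` be the integral matrix of `g`, `m = det A > 0` (positivity from `g.2`).
* `mdiff`: `GAL.Mult.mdiff_comp_smul`.
* `texp γ`: `A * γ` is integral of determinant `m`; `S24.B.exists_hermite`: `A γ = γ' (a b; 0 d)`, `a d = m`.  So
  `f (g • γ • τ) = (f ∘ γ') (triMat a b d • τ)`; take `s` from `hf.texp γ'` and apply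
  `Lib.EtaUnit.hasTExp_tri'` with `M := N`, `N := N'`, `e := N' a / (d N)` (`N a d ∣ N'`), `ξ := zetaK (d N) ^ b`.
* `fin`: `(1 k; 0 1) (a b; 0 d) = (a (b + k d); 0 d)`, so one can take `0 ≤ b < d` in the Hermite form
  (`exists_hermite_red`); the set is contained in the image of the finite set
  `(range fun γ' => f ∘ γ') × {(a, b, d) : a, d ∈ [1, m], b ∈ [0, m)}`.
-/
import Fermat.Agent.GAL.Mult.API
import Fermat.Agent.Lib.EtaUnit.TExp.Tri

set_option autoImplicit false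

namespace Fermat.Agent.S48.BB.T

open UpperHalfPlane ModularCurve
open Fermat.Agent.S24 Fermat.Agent.S24.B Fermat.Agent.GAL.Mult
open scoped MatrixGroups Real Manifold

/-- `g ∈ GL(2,ℝ)⁺` is an integral matrix, and `N * det g ∣ N'`. -/
def IsIntLevel (N N' : ℕ) (g : GL(2, ℝ)⁺) : Prop :=
  ∃ A : Matrix (Fin 2) (Fin 2) ℤ, (N : ℤ) * A.det ∣ (N' : ℤ) ∧
    ((g : GL (Fin 2) ℝ) : Matrix (Fin 2) (Fin 2) ℝ) = A.map (Int.cast : ℤ → ℝ)

/-- Hermite normal form with reduced upper right entry. -/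
theorem exists_hermite_red (α : Matrix (Fin 2) (Fin 2) ℤ) (hα : 0 < α.det) :
    ∃ (γ : SL(2, ℤ)) (a b d : ℤ), 0 < a ∧ 0 < d ∧ a * d = α.det ∧ 0 ≤ b ∧ b < d ∧
      α = γ.1 * !![a, b; 0, d] := by
  obtain ⟨γ, a, b, d, ha, hd, had, -, hmul⟩ := exists_hermite α hα
  refine ⟨γ * ModularGroup.T ^ (b / d), a, b % d, d, ha, hd, had, Int.emod_nonneg _ hd.ne',
    Int.emod_lt_of_pos _ hd, ?_⟩
  have h1 : (ModularGroup.T ^ (b / d) : SL(2, ℤ)).1 * !![a, b % d; 0, d] = !![a, b; 0, d] := by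
    have h2 : (ModularGroup.T ^ (b / d) : SL(2, ℤ)).1 = !![1, b / d; 0, 1] :=
      ModularGroup.coe_T_zpow _
    rw [h2]
    have h3 : b % d + b / d * d = b := by
      rw [mul_comm]; exact Int.emod_add_mul_ediv b d
    ext i j
    fin_cases i <;> fin_cases j <;> simp [Matrix.mul_apply, Fin.sum_univ_two, h3]
  have h4 : (γ * ModularGroup.T ^ (b / d) : SL(2, ℤ)).1 =
      γ.1 * (ModularGroup.T ^ (b / d) : SL(2, ℤ)).1 := rfl
  rw [h4, Matrix.mul_assoc, h1]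
  exact hmul

/-- the determinant of the integral matrix of an element of `GL(2,ℝ)⁺` is positive -/
private theorem CompAdm_det_pos {g : GL(2, ℝ)⁺} {A : Matrix (Fin 2) (Fin 2) ℤ}
    (hg : ((g : GL (Fin 2) ℝ) : Matrix (Fin 2) (Fin 2) ℝ) = A.map (Int.cast : ℤ → ℝ)) :
    0 < A.det := by
  have h1 : 0 < ((g : GL (Fin 2) ℝ) : Matrix (Fin 2) (Fin 2) ℝ).det := g.2
  rw [hg, Matrix.det_fin_two] at h1
  rw [Matrix.det_fin_two]
  simp only [Matrix.map_apply] at h1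
  exact_mod_cast h1

/-- the translates of `g` in Hermite form -/
private theorem CompAdm_key {g : GL(2, ℝ)⁺} {A : Matrix (Fin 2) (Fin 2) ℤ}
    (hg : ((g : GL (Fin 2) ℝ) : Matrix (Fin 2) (Fin 2) ℝ) = A.map (Int.cast : ℤ → ℝ))
    (γ : SL(2, ℤ)) :
    ∃ (γ' : SL(2, ℤ)) (a b d : ℤ) (ha : 0 < a) (hd : 0 < d), a * d = A.det ∧ 0 ≤ b ∧ b < d ∧
      ∀ τ : ℍ, g • γ • τ = γ' • triMat a b d ha hd • τ := by
  have hA := CompAdm_det_pos hg
  have hdet : (A * γ.1).det = A.det := by rw [Matrix.det_mul, γ.2, mul_one]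
  obtain ⟨γ', a, b, d, ha, hd, had, hb0, hbd, hmul⟩ :=
    exists_hermite_red (A * γ.1) (by rw [hdet]; exact hA)
  refine ⟨γ', a, b, d, ha, hd, by rw [had, hdet], hb0, hbd, fun τ => ?_⟩
  have hgg : (g : GL (Fin 2) ℝ) * (γ : GL (Fin 2) ℝ) =
      (γ' : GL (Fin 2) ℝ) * triMat a b d ha hd := by
    apply Units.ext
    rw [Units.val_mul, Units.val_mul, hg, coe_triMat]
    have h1 := congrArg (fun M : Matrix (Fin 2) (Fin 2) ℤ => M.map (Int.cast : ℤ → ℝ)) hmul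
    ext i j
    have h2 := congrFun (congrFun h1 i) j
    fin_cases i <;> fin_cases j <;>
      simpa [Matrix.mul_apply, Fin.sum_univ_two] using h2
  show (g : GL (Fin 2) ℝ) • (γ : GL (Fin 2) ℝ) • τ = (γ' : GL (Fin 2) ℝ) • triMat a b d ha hd • τ
  rw [← mul_smul, hgg, mul_smul]

theorem IsAdm.comp_gl {N N' : ℕ} [NeZero N] [NeZero N'] {f : ℍ → ℂ} (hf : IsAdm N f)
    {g : GL(2, ℝ)⁺} (hg : IsIntLevel N N' g) : IsAdm N' (fun τ => f (g • τ)) := by
  obtain ⟨A, hdiv, hgA⟩ := hg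
  have hA := CompAdm_det_pos hgA
  refine ⟨mdiff_comp_smul hf.mdiff g, fun γ => ?_, ?_⟩
  · obtain ⟨γ', a, b, d, ha, hd, had, -, -, hτ⟩ := CompAdm_key hgA γ
    obtain ⟨s, hs⟩ := hf.texp γ'
    obtain ⟨c, hc⟩ := hdiv
    have hN : (0 : ℤ) < N := by exact_mod_cast Nat.pos_of_ne_zero (NeZero.ne N)
    have hN' : (0 : ℤ) < N' := by exact_mod_cast Nat.pos_of_ne_zero (NeZero.ne N')
    have hc0 : 0 < c := by
      rw [hc] at hN'
      exact (mul_pos_iff_of_pos_left (mul_pos hN hA)).mp hN'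
    have he0 : 0 < a * a * c := mul_pos (mul_pos ha ha) hc0
    have _ : NeZero (a * a * c).toNat := ⟨by omega⟩
    have hen : (((a * a * c).toNat : ℕ) : ℤ) = a * a * c := Int.toNat_of_nonneg he0.le
    have hdM : d.toNat * N ≠ 0 := mul_ne_zero (by omega) (NeZero.ne N)
    have _ : NeZero (d.toNat * N) := ⟨hdM⟩
    have hdn : ((d.toNat : ℕ) : ℤ) = d := Int.toNat_of_nonneg hd.le
    have h1 := Lib.EtaUnit.hasTExp_tri' (N := N') hs a b d ha hd (a * a * c).toNat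
      (by rw [hen, hc, ← had]; ring) (zetaK (d.toNat * N) ^ b) (by
        rw [iota_zetaK_zpow]
        have hdC : ((d.toNat : ℕ) : ℂ) = (d : ℂ) := by
          exact_mod_cast congrArg (Int.cast : ℤ → ℂ) hdn
        push_cast
        rw [hdC])
    have h2 : (fun τ => f (g • γ • τ)) = fun τ => f (γ' • triMat a b d ha hd • τ) := by
      funext τ
      rw [hτ]
    exact ⟨_, by rw [h2]; exact h1⟩
  · classical
    let Φ : (ℍ → ℂ) × (ℤ × ℤ × ℤ) → (ℍ → ℂ) := fun p τ =>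
      if h : 0 < p.2.1 ∧ 0 < p.2.2.2 then p.1 (triMat p.2.1 p.2.2.1 p.2.2.2 h.1 h.2 • τ) else 0
    have hfin : ((Set.range fun γ : SL(2, ℤ) => fun τ : ℍ => f (γ • τ)) ×ˢ
        (Set.Icc (1 : ℤ) A.det ×ˢ (Set.Ico (0 : ℤ) A.det ×ˢ Set.Icc (1 : ℤ) A.det))).Finite :=
      hf.fin.prod ((Set.finite_Icc _ _).prod ((Set.finite_Ico _ _).prod (Set.finite_Icc _ _)))
    refine (hfin.image Φ).subset ?_
    rintro _ ⟨γ, rfl⟩
    obtain ⟨γ', a, b, d, ha, hd, had, hb0, hbd, hτ⟩ := CompAdm_key hgA γ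
    have ha' : a ≤ A.det := by rw [← had]; nlinarith
    have hd' : d ≤ A.det := by rw [← had]; nlinarith
    have ha1 : 1 ≤ a := ha
    have hd1 : 1 ≤ d := hd
    have hbm : b < A.det := lt_of_lt_of_le hbd hd'
    refine ⟨(fun τ => f (γ' • τ), (a, b, d)), ⟨⟨γ', rfl⟩, ⟨ha1, ha'⟩, ⟨hb0, hbm⟩,
      ⟨hd1, hd'⟩⟩, ?_⟩
    funext τ
    show (if h : 0 < a ∧ 0 < d then f (γ' • triMat a b d h.1 h.2 • τ) else 0) = f (g • γ • τ)
    rw [dif_pos ⟨ha, hd⟩, hτ]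

end Fermat.Agent.S48.BB.T
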