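/-
S48, block BB/T (architect helper25).  TASK BB-T-3 (proofs helper230).
The homomorphism `compLL g : LL N → LL N'`, `x ↦ x ∘ g`, for an integral matrix `g` of positive determinant
with `N * det g ∣ N'`.  Everything is characterised by `embL_compLL` (in the field `MM` of meromorphic functions,
where `GL(2,ℝ)⁺` acts) and `embL_injective`.
All the proofs: `IsLocalization.ringHom_ext (nonZeroDivisors (AB N))` as in `GAL/Mult/API.lean`.
-/
import Fermat.Agent.S48.BB.T.CompAdm

set_option autoImplicit false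

namespace Fermat.Agent.S48.BB.T

open UpperHalfPlane ModularCurve
open Fermat.Agent.S24 Fermat.Agent.S24.B Fermat.Agent.GAL.Mult
open scoped MatrixGroups Real Manifold

variable {N N' : ℕ} [NeZero N] [NeZero N']

/-- `f ↦ f ∘ g` on admissible functions. -/
noncomputable def compAB (g : GL(2, ℝ)⁺) (hg : IsIntLevel N N' g) : AB N →ₐ[Kbar] AB N' where
  toFun f := ⟨fun τ => f.1 (g • τ), IsAdm.comp_gl f.2 hg⟩
  map_one' := rfl
  map_mul' _ _ := rfl
  map_zero' := rfl
  map_add' _ _ := rfl
  commutes' _ := rfl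

theorem compAB_apply (g : GL(2, ℝ)⁺) (hg : IsIntLevel N N' g) (f : AB N) (τ : ℍ) :
    (compAB g hg f).1 τ = f.1 (g • τ) := rfl

theorem compAB_injective (g : GL(2, ℝ)⁺) (hg : IsIntLevel N N' g) :
    Function.Injective (compAB g hg) := by
  intro f f' h
  apply Subtype.ext
  funext τ
  have h1 := congrArg (fun F : AB N' => F.1 (g⁻¹ • τ)) h
  simpa only [compAB_apply, smul_inv_smul] using h1

/-- `x ↦ x ∘ g` on the fraction fields. -/
noncomputable def compLL (g : GL(2, ℝ)⁺) (hg : IsIntLevel N N' g) : LL N →ₐ[Kbar] LL N' :=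
  IsFractionRing.liftAlgHom
    (g := (IsScalarTower.toAlgHom Kbar (AB N') (LL N')).comp (compAB g hg))
    ((IsFractionRing.injective (AB N') (LL N')).comp (compAB_injective g hg))

theorem compLL_algebraMap (g : GL(2, ℝ)⁺) (hg : IsIntLevel N N' g) (f : AB N) :
    compLL g hg (algebraMap (AB N) (LL N) f) = algebraMap (AB N') (LL N') (compAB g hg f) :=
  IsFractionRing.liftAlgHom_apply .. |>.trans (IsFractionRing.lift_algebraMap _ _)

theorem embL_injective (N : ℕ) [NeZero N] : Function.Injective (embL N) :=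
  (embL N).toRingHom.injective

/-- **Characterisation of `compLL`.** -/
theorem embL_compLL (g : GL(2, ℝ)⁺) (hg : IsIntLevel N N' g) (x : LL N) :
    embL N' (compLL g hg x) = g⁻¹ • embL N x := by
  have h : (embL N').toRingHom.comp (compLL g hg).toRingHom =
      (MulSemiringAction.toRingHom GL(2, ℝ)⁺ MM g⁻¹).comp (embL N).toRingHom := by
    refine IsLocalization.ringHom_ext (nonZeroDivisors (AB N)) ?_
    refine RingHom.ext fun f => ?_
    show embL N' (compLL g hg (algebraMap (AB N) (LL N) f)) =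
      g⁻¹ • embL N (algebraMap (AB N) (LL N) f)
    have h1 : abToHol N' (compAB g hg f) = g⁻¹ • abToHol N f := by
      apply Subtype.ext
      funext τ
      show f.1 (g • τ) = f.1 ((g⁻¹)⁻¹ • τ)
      rw [inv_inv]
    rw [compLL_algebraMap, embL_algebraMap, embL_algebraMap, smul_algebraMap_Hol, h1]
  exact RingHom.congr_fun h x

/-- `compLL` and the action of `SL(2,ℤ)`: if `g γ = δ g'` then `(x ∘ g) ∘ γ = (x ∘ δ) ∘ g'`.
(Apply `embL_injective`, `embL_smul`, `embL_compLL`, `mul_smul`.) -/
theorem smul_compLL {g g' : GL(2, ℝ)⁺} (hg : IsIntLevel N N' g) (hg' : IsIntLevel N N' g')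
    (γ δ : SL(2, ℤ)) (h : g * sl γ = sl δ * g') (x : LL N) :
    γ⁻¹ • compLL g hg x = compLL g' hg' (δ⁻¹ • x) := by
  apply embL_injective N'
  rw [embL_smul, embL_compLL, embL_compLL, embL_smul, ← mul_smul, ← mul_smul, map_inv, map_inv,
    ← mul_inv_rev, ← mul_inv_rev, h]

/-- The `t`-expansion of `x ((a τ + b) / d)`  (`Lib.EtaUnit.hasTExp_tri'` on `AB N`). -/
theorem texpLL_compLL_tri {g : GL(2, ℝ)⁺} (hg : IsIntLevel N N' g) (a b d : ℤ) (ha : 0 < a)
    (hd : 0 < d) (hgt : (g : GL (Fin 2) ℝ) = triMat a b d ha hd) (e : ℕ) [NeZero e]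
    (he : (e : ℤ) * (d * N) = N' * a) (ξ : Kbarˣ)
    (hξ : iota (ξ : Kbar) = Complex.exp (2 * π * Complex.I * b / (d * N))) (x : LL N) :
    texpLL N' (compLL g hg x) = qExpand Kbar e (twist ξ (texpLL N x)) := by
  have h : (texpLL N').toRingHom.comp (compLL g hg).toRingHom =
      ((qExpand Kbar e).comp (twist ξ)).comp (texpLL N).toRingHom := by
    refine IsLocalization.ringHom_ext (nonZeroDivisors (AB N)) ?_
    refine RingHom.ext fun f => ?_
    show texpLL N' (compLL g hg (algebraMap (AB N) (LL N) f)) =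
      qExpand Kbar e (twist ξ (texpLL N (algebraMap (AB N) (LL N) f)))
    rw [compLL_algebraMap, texpLL_algebraMap, texpLL_algebraMap]
    apply texpB_eq
    have h1 := Lib.EtaUnit.hasTExp_tri' (N := N') (hasTExp_texpB f) a b d ha hd e he ξ hξ
    have h2 : (compAB g hg f).1 = fun τ => f.1 (triMat a b d ha hd • τ) := by
      funext τ
      rw [compAB_apply, ← hgt]
      rfl
    rw [h2]
    exact h1
  exact RingHom.congr_fun h x

theorem isIntLevel_one {k : ℕ} (h : N * k = N') : IsIntLevel N N' 1 := by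
  refine ⟨1, ?_, ?_⟩
  · rw [Matrix.det_one, mul_one]
    exact_mod_cast Dvd.intro k h
  · rw [Matrix.map_one _ Int.cast_zero Int.cast_one]
    rfl

/-- Raising the level: `LL N → LL (N k)`. -/
noncomputable def levelUp {k : ℕ} (h : N * k = N') : LL N →ₐ[Kbar] LL N' :=
  compLL 1 (isIntLevel_one h)

theorem embL_levelUp {k : ℕ} (h : N * k = N') (x : LL N) :
    embL N' (levelUp h x) = embL N x := by
  rw [levelUp, embL_compLL, inv_one, one_smul]

theorem smul_levelUp {k : ℕ} (h : N * k = N') (γ : SL(2, ℤ)) (x : LL N) :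
    γ • levelUp h x = levelUp h (γ • x) := by
  apply embL_injective N'
  rw [embL_smul, embL_levelUp, embL_levelUp, embL_smul]

theorem texpLL_levelUp {k : ℕ} [NeZero k] (h : N * k = N') (x : LL N) :
    texpLL N' (levelUp h x) = qExpand Kbar k (texpLL N x) := by
  have h1 := texpLL_compLL_tri (isIntLevel_one h) 1 0 1 one_pos one_pos
    (by
      apply Units.ext
      rw [coe_triMat]
      ext i j
      fin_cases i <;> fin_cases j <;> simp) k
    (by
      have h2 : (N : ℤ) * k = N' := by exact_mod_cast h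
      rw [← h2]
      ring) 1
    (by simp) x
  rw [twist_one] at h1
  exact h1

end Fermat.Agent.S48.BB.T
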