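/-
S48, block BB/T (architect helper25).  TASK BB-T-6 (prover helper8).
Matrix lemmas for `H1 M 1 = ±Γ₁(M)`, `H1 M p = ±Γ₁(M) ∩ Γ₀(M p)`, `σ_p = sig M p`, `repT1 M p`.

PROOFS (`dd M γ` = lower right entry mod `M`, multiplicative on `Γ₀(M)`: `S48.A.dd_mul`; `H.mem_H1_one_iff`).
* `mem_normalizer_of_mem_Gamma0`: `dd (σ γ σ⁻¹) = dd σ * dd γ * dd σ⁻¹ = dd γ`.
* `mem_H1_iff`: `Γ₀(M p)`: `M p ∣ c ↔ M ∣ c ∧ p ∣ c` (coprime).
* `repT1_trans`: `x = ∞`: `γ = δ = 1`.  `x = j`: as in `Lib.MulHecke.exists_coset_rep`: `s p + v M = 1`,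
  `g = (1, j - v; M, M j + s p) ∈ Γ₁(M)`, `δ' = (p, -v; M, s) ∈ Γ₀(M)`, `dd δ' = s = p⁻¹`, `diag(p,1) g = δ' (1 j; 0 p)`; take `γ = g`,
  `δ = σ_p δ'` (`dd δ = p * s = 1`).
* `repT1_stab`: `σ_p diag(p,1) γ = δ σ_p diag(p,1)` iff `diag(p,1) γ diag(p,1)⁻¹ = (a, p b; c / p, d)` equals `σ_p⁻¹ δ σ_p`.
  If `p ∣ c` put `δ := σ_p (a, p b; c/p, d) σ_p⁻¹` (`M ∣ c / p` by coprimality; `dd δ = d`).  Conversely compare the
  lower left entries (of integral matrices: cast injectivity) to get `p ∣ c`.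
* `isIntLevel_repT1`: integral matrix `(sig M p).1 * !![p, 0; 0, 1]`, resp. `!![1, j; 0, p]`, determinant `p`;
  `ModularForm.val_heckeMatrix`, `ModularForm.val_heckeDiagMatrix`.
* `F1Q_le`: `sup_le_sup_left (full_degeneracy_le …)`.
-/
import Fermat.Agent.S48.BB.H.Defs
import Fermat.Agent.S48.BB.T.CompAdm

set_option autoImplicit false
set_option linter.unusedSectionVars false

namespace Fermat.Agent.S48.BB.T

open ModularCurve CongruenceSubgroup Matrix.SpecialLinearGroup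
open Fermat.Agent.S24 Fermat.Agent.S48.A Fermat.Agent.S48.BB.H
open scoped MatrixGroups OnePoint

variable (M : ℕ) [NeZero M]

omit [NeZero M] in
private theorem Mat_conj_mem {σ γ : SL(2, ℤ)} (hσ : σ ∈ Gamma0 M) (hγ : γ ∈ H1 M 1) :
    σ * γ * σ⁻¹ ∈ H1 M 1 := by
  have hγ0 : γ ∈ Gamma0 M := H1_le_Gamma0 hγ
  have h1 : σ * γ ∈ Gamma0 M := Subgroup.mul_mem _ hσ hγ0
  refine mem_H1_of_dd_eq hγ (Subgroup.mul_mem _ h1 (Subgroup.inv_mem _ hσ)) ?_
  rw [dd_mul h1, dd_mul hσ, mul_comm (dd M σ), mul_assoc, dd_mul_dd_inv hσ, mul_one]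

theorem mem_normalizer_of_mem_Gamma0 {σ : SL(2, ℤ)} (hσ : σ ∈ Gamma0 M) :
    σ ∈ Subgroup.normalizer (H1 M 1 : Set SL(2, ℤ)) := by
  rw [Subgroup.mem_normalizer_iff]
  intro γ
  constructor
  · intro hγ
    exact Mat_conj_mem M hσ hγ
  · intro hγ
    have h := Mat_conj_mem M (Subgroup.inv_mem _ hσ) hγ
    have e : σ⁻¹ * (σ * γ * σ⁻¹) * σ⁻¹⁻¹ = γ := by group
    rw [e] at h
    exact h

theorem mem_H1_one_of_dd_eq {σ τ : SL(2, ℤ)} (hσ : σ ∈ Gamma0 M) (hτ : τ ∈ Gamma0 M)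
    (h : dd M σ = dd M τ) : σ * τ⁻¹ ∈ H1 M 1 := by
  rw [mem_H1_one_iff]
  refine ⟨Subgroup.mul_mem _ hσ (Subgroup.inv_mem _ hτ), Or.inl ?_⟩
  rw [dd_mul hσ, h, dd_mul_dd_inv hτ]

variable (p : ℕ) [NeZero p]

theorem mem_H1_iff (hpM : Nat.Coprime p M) (γ : SL(2, ℤ)) :
    γ ∈ H1 M p ↔ γ ∈ H1 M 1 ∧ (p : ℤ) ∣ γ 1 0 := by
  have hcop : IsCoprime (M : ℤ) (p : ℤ) := Nat.isCoprime_iff_coprime.2 hpM.symm
  rw [H1, H1, Subgroup.mem_inf, Subgroup.mem_inf, mul_one, Gamma0_mem, Gamma0_mem,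
    ZMod.intCast_zmod_eq_zero_iff_dvd, ZMod.intCast_zmod_eq_zero_iff_dvd, and_assoc]
  refine and_congr_right fun _ => ?_
  push_cast
  constructor
  · intro h
    exact ⟨(Dvd.intro _ rfl).trans h, (Dvd.intro_left _ rfl).trans h⟩
  · rintro ⟨h1, h2⟩
    exact hcop.mul_dvd h1 h2

omit [NeZero M] in
private theorem Mat_val_mapGL (γ : SL(2, ℤ)) :
    ((mapGL ℝ γ : GL (Fin 2) ℝ) : Matrix (Fin 2) (Fin 2) ℝ) = γ.1.map (Int.cast : ℤ → ℝ) := by
  ext i j; simp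

/-- An identity of integral matrices gives the identity in `GL₂(ℝ)`. -/
private theorem Mat_diag_mul (g δ : SL(2, ℤ)) (j : ℕ)
    (h : (!![(p : ℤ), 0; 0, 1] : Matrix (Fin 2) (Fin 2) ℤ) * g.1 = δ.1 * !![1, (j : ℤ); 0, (p : ℤ)]) :
    ModularForm.heckeDiagMatrix p * mapGL ℝ g = mapGL ℝ δ * ModularForm.heckeMatrix p j := by
  have hp : p ≠ 0 := NeZero.ne p
  apply Units.ext
  rw [Units.val_mul, Units.val_mul, ModularForm.val_heckeDiagMatrix hp,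
    ModularForm.val_heckeMatrix hp, Mat_val_mapGL, Mat_val_mapGL]
  have h' := congrArg (fun A : Matrix (Fin 2) (Fin 2) ℤ => A.map (Int.cast : ℤ → ℝ)) h
  simp only [Matrix.map_mul_intCast] at h'
  convert h' using 2
  · ext i k; fin_cases i <;> fin_cases k <;> simp
  · ext i k; fin_cases i <;> fin_cases k <;> simp

private theorem Mat_diag_mul_diag (g δ : SL(2, ℤ))
    (h : (!![(p : ℤ), 0; 0, 1] : Matrix (Fin 2) (Fin 2) ℤ) * g.1 = δ.1 * !![(p : ℤ), 0; 0, 1]) :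
    ModularForm.heckeDiagMatrix p * mapGL ℝ g = mapGL ℝ δ * ModularForm.heckeDiagMatrix p := by
  have hp : p ≠ 0 := NeZero.ne p
  apply Units.ext
  rw [Units.val_mul, Units.val_mul, ModularForm.val_heckeDiagMatrix hp,
    Mat_val_mapGL, Mat_val_mapGL]
  have h' := congrArg (fun A : Matrix (Fin 2) (Fin 2) ℤ => A.map (Int.cast : ℤ → ℝ)) h
  simp only [Matrix.map_mul_intCast] at h'
  convert h' using 2
  · ext i k; fin_cases i <;> fin_cases k <;> simp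
  · ext i k; fin_cases i <;> fin_cases k <;> simp

omit [NeZero M] [NeZero p] in
private theorem Mat_isUnit (hpM : Nat.Coprime p M) : IsUnit ((p : ℕ) : ZMod M) := by
  rw [ZMod.isUnit_iff_coprime]
  exact hpM

theorem repT1_trans (hpM : Nat.Coprime p M) (x : OnePoint (ZMod p)) :
    ∃ γ ∈ H1 M 1, ∃ δ ∈ H1 M 1, repT1 M p ∞ * mapGL ℝ γ = mapGL ℝ δ * repT1 M p x := by
  induction x using OnePoint.rec with
  | infty =>
    exact ⟨1, Subgroup.one_mem _, 1, Subgroup.one_mem _, by rw [map_one, mul_one, one_mul]⟩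
  | coe j =>
    obtain ⟨s, v, hsv⟩ : IsCoprime (p : ℤ) (M : ℤ) := Nat.isCoprime_iff_coprime.2 hpM
    have hsp : (s : ZMod M) * (p : ZMod M) = 1 := by
      have := congrArg (Int.cast : ℤ → ZMod M) hsv
      push_cast at this
      simpa using this
    let b : ℤ := (j.val : ℤ)
    let g : SL(2, ℤ) := ⟨!![1, b - v; (M : ℤ), M * b + s * p], by
      rw [Matrix.det_fin_two_of]
      linear_combination hsv⟩
    let δ : SL(2, ℤ) := ⟨!![(p : ℤ), -v; (M : ℤ), s], by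
      rw [Matrix.det_fin_two_of]
      linear_combination hsv⟩
    have hg0 : g ∈ Gamma0 M := by
      rw [Gamma0_mem]
      show (((M : ℤ) : ℤ) : ZMod M) = 0
      simp
    have hδ0 : δ ∈ Gamma0 M := by
      rw [Gamma0_mem]
      show (((M : ℤ) : ℤ) : ZMod M) = 0
      simp
    have hgd : dd M g = 1 := by
      show ((M * b + s * p : ℤ) : ZMod M) = 1
      push_cast
      rw [hsp]; simp
    have hδd : dd M δ = (s : ZMod M) := rfl
    have hmat : (!![(p : ℤ), 0; 0, 1] : Matrix (Fin 2) (Fin 2) ℤ) * g.1 =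
        δ.1 * !![1, ((j.val : ℕ) : ℤ); 0, (p : ℤ)] := by
      show (!![(p : ℤ), 0; 0, 1] : Matrix (Fin 2) (Fin 2) ℤ) * !![1, b - v; (M : ℤ), M * b + s * p] =
        !![(p : ℤ), -v; (M : ℤ), s] * !![1, b; 0, (p : ℤ)]
      ext i k
      fin_cases i <;> fin_cases k <;> simp [Matrix.mul_apply, Fin.sum_univ_two] <;> ring
    refine ⟨g, mem_H1_one_iff.mpr ⟨hg0, Or.inl hgd⟩, sig M (p : ZMod M) * δ,
      mem_H1_one_iff.mpr ⟨Subgroup.mul_mem _ (sig_mem M _) hδ0, Or.inl ?_⟩, ?_⟩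
    · rw [dd_mul (sig_mem M _), dd_sig (Mat_isUnit M p hpM), hδd, mul_comm, hsp]
    · rw [repT1_infty, repT1_coe, mul_assoc, Mat_diag_mul p g δ j.val hmat, map_mul, mul_assoc]

theorem repT1_stab (hpM : Nat.Coprime p M) (γ : SL(2, ℤ)) (hγ : γ ∈ H1 M 1) :
    γ ∈ H1 M p ↔ ∃ δ ∈ H1 M 1, repT1 M p ∞ * mapGL ℝ γ = mapGL ℝ δ * repT1 M p ∞ := by
  have hp : p ≠ 0 := NeZero.ne p
  have hp' : (p : ℤ) ≠ 0 := by exact_mod_cast hp
  rw [mem_H1_iff M p hpM]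
  constructor
  · rintro ⟨-, c', hc'⟩
    have hγ0 : γ ∈ Gamma0 M := H1_le_Gamma0 hγ
    have hMc : (M : ℤ) ∣ γ 1 0 := (ZMod.intCast_zmod_eq_zero_iff_dvd _ _).mp (Gamma0_mem.mp hγ0)
    have hMc' : (M : ℤ) ∣ c' := by
      have hcop : IsCoprime (M : ℤ) (p : ℤ) := Nat.isCoprime_iff_coprime.2 hpM.symm
      rw [hc'] at hMc
      exact hcop.dvd_of_dvd_mul_left hMc
    have hdet : γ 0 0 * γ 1 1 - γ 0 1 * γ 1 0 = 1 := by
      have := γ.2
      rwa [Matrix.det_fin_two] at this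
    let γ' : SL(2, ℤ) := ⟨!![γ 0 0, p * γ 0 1; c', γ 1 1], by
      rw [Matrix.det_fin_two_of]
      rw [hc'] at hdet
      linear_combination hdet⟩
    have hγ'0 : γ' ∈ Gamma0 M := by
      rw [Gamma0_mem]
      show ((c' : ℤ) : ZMod M) = 0
      exact (ZMod.intCast_zmod_eq_zero_iff_dvd _ _).mpr hMc'
    have hγ' : γ' ∈ H1 M 1 := mem_H1_of_dd_eq hγ hγ'0 rfl
    have hmat : (!![(p : ℤ), 0; 0, 1] : Matrix (Fin 2) (Fin 2) ℤ) * γ.1 =
        γ'.1 * !![(p : ℤ), 0; 0, 1] := by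
      show (!![(p : ℤ), 0; 0, 1] : Matrix (Fin 2) (Fin 2) ℤ) * γ.1 =
        !![γ 0 0, p * γ 0 1; c', γ 1 1] * !![(p : ℤ), 0; 0, 1]
      ext i k
      fin_cases i <;> fin_cases k <;> simp [Matrix.mul_apply, Fin.sum_univ_two, hc'] <;> ring
    refine ⟨sig M (p : ZMod M) * γ' * (sig M (p : ZMod M))⁻¹,
      Mat_conj_mem M (sig_mem M _) hγ', ?_⟩
    rw [repT1_infty, mul_assoc, Mat_diag_mul_diag p γ γ' hmat, map_mul, map_mul, map_inv]
    group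
  · rintro ⟨δ, -, h⟩
    refine ⟨hγ, ?_⟩
    set σ := sig M (p : ZMod M) with hσ
    set ε : SL(2, ℤ) := σ⁻¹ * δ * σ with hε
    have h1 : ModularForm.heckeDiagMatrix p * mapGL ℝ γ =
        mapGL ℝ ε * ModularForm.heckeDiagMatrix p := by
      rw [repT1_infty, ← hσ] at h
      rw [hε, map_mul, map_mul, map_inv]
      have h2 := congrArg (fun X => (mapGL ℝ σ : GL (Fin 2) ℝ)⁻¹ * X) h
      simp only [← mul_assoc, inv_mul_cancel, one_mul] at h2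
      exact h2
    have h3 := congrArg (fun X : GL (Fin 2) ℝ => (X : Matrix (Fin 2) (Fin 2) ℝ) 1 0) h1
    simp only [Units.val_mul, ModularForm.val_heckeDiagMatrix hp, Mat_val_mapGL,
      Matrix.mul_apply, Fin.sum_univ_two] at h3
    simp at h3
    refine ⟨ε 1 0, ?_⟩
    have h4 : ((γ 1 0 : ℤ) : ℝ) = (((p : ℤ) * ε 1 0 : ℤ) : ℝ) := by
      push_cast
      rw [h3]; ring
    exact_mod_cast h4

theorem isIntLevel_repT1 (x : OnePoint (ZMod p)) :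
    IsIntLevel (M * 1) (M * p) ⟨repT1 M p x, repT1_det_pos M p x⟩ := by
  have hp : p ≠ 0 := NeZero.ne p
  induction x using OnePoint.rec with
  | infty =>
    refine ⟨(sig M (p : ZMod M)).1 * !![(p : ℤ), 0; 0, 1], ?_, ?_⟩
    · rw [Matrix.det_mul, (sig M (p : ZMod M)).2, Matrix.det_fin_two_of]
      simp
    · show ((repT1 M p ∞ : GL (Fin 2) ℝ) : Matrix (Fin 2) (Fin 2) ℝ) = _
      rw [repT1_infty, Units.val_mul, ModularForm.val_heckeDiagMatrix hp, Mat_val_mapGL,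
        Matrix.map_mul_intCast]
      congr 1
      ext i k; fin_cases i <;> fin_cases k <;> simp
  | coe j =>
    refine ⟨!![1, (j.val : ℤ); 0, (p : ℤ)], ?_, ?_⟩
    · rw [Matrix.det_fin_two_of]
      simp
    · show ((repT1 M p (j : OnePoint (ZMod p)) : GL (Fin 2) ℝ) : Matrix (Fin 2) (Fin 2) ℝ) = _
      rw [repT1_coe, ModularForm.val_heckeMatrix hp]
      ext i k; fin_cases i <;> fin_cases k <;> simp

theorem F1Q_le : F1Q M 1 ≤ F1Q M p := by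
  unfold F1Q
  exact sup_le_sup_left (full_degeneracy_le (by rw [mul_one]; exact Dvd.intro _ rfl)) _

end Fermat.Agent.S48.BB.T
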