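/-
S48, block BB/T (architect helper25).
Generic tools on top of the API `U0` of `IsLvl F₀ H N`:
* `smulAlg γ`   : the action of `γ ∈ SL(2,ℤ)` on `LL N` as a `ℚ̄`-algebra homomorphism;
* `liftPsi hL φ`: a homomorphism `φ : A → LL N` with `H`-invariant values factors through `Psi hL`;
* `conjAut hL σ`: an element `σ` of the normaliser of `H` acts on `FB F₀` by `u ↦ u ∘ σ`.
-/
import Fermat.Agent.S48.BB.U.Basic

set_option autoImplicit false

noncomputable section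

namespace Fermat.Agent.S48.BB.T

open ModularCurve
open Fermat.Agent.S24 Fermat.Agent.GAL.Mult Fermat.Agent.S48.BB.U
open scoped MatrixGroups

variable {F₀ : IntermediateField ℚ (LaurentSeries ℚ)} {H : Subgroup SL(2, ℤ)} {N : ℕ} [NeZero N]

/-- The action of `γ ∈ SL(2,ℤ)` on `LL N` as a `ℚ̄`-algebra homomorphism. -/
def smulAlg (N : ℕ) [NeZero N] (γ : SL(2, ℤ)) : LL N →ₐ[Kbar] LL N :=
  { MulSemiringAction.toRingHom SL(2, ℤ) (LL N) γ with
    commutes' := fun c => smul_algebraMap_Kbar_LL γ c }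

theorem smulAlg_apply (γ : SL(2, ℤ)) (x : LL N) : smulAlg N γ x = γ • x := rfl

/-- A homomorphism to `LL N` with `H`-invariant values factors through `Psi hL`. -/
def liftPsi (hL : IsLvl F₀ H N) {A : Type*} [CommRing A] [Algebra Kbar A] (φ : A →ₐ[Kbar] LL N)
    (hφ : ∀ a, ∀ γ ∈ H, γ • φ a = φ a) : A →ₐ[Kbar] FB F₀ where
  toFun a := (exists_Psi_eq_of_fixed hL (φ a) (hφ a)).choose
  map_one' := Psi_injective hL (by
    rw [(exists_Psi_eq_of_fixed hL _ (hφ _)).choose_spec, map_one, map_one])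
  map_mul' a b := Psi_injective hL (by
    rw [(exists_Psi_eq_of_fixed hL _ (hφ _)).choose_spec, map_mul, map_mul,
      (exists_Psi_eq_of_fixed hL _ (hφ _)).choose_spec,
      (exists_Psi_eq_of_fixed hL _ (hφ _)).choose_spec])
  map_zero' := Psi_injective hL (by
    rw [(exists_Psi_eq_of_fixed hL _ (hφ _)).choose_spec, map_zero, map_zero])
  map_add' a b := Psi_injective hL (by
    rw [(exists_Psi_eq_of_fixed hL _ (hφ _)).choose_spec, map_add, map_add,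
      (exists_Psi_eq_of_fixed hL _ (hφ _)).choose_spec,
      (exists_Psi_eq_of_fixed hL _ (hφ _)).choose_spec])
  commutes' c := Psi_injective hL (by
    rw [(exists_Psi_eq_of_fixed hL _ (hφ _)).choose_spec, AlgHom.commutes, AlgHom.commutes])

theorem Psi_liftPsi (hL : IsLvl F₀ H N) {A : Type*} [CommRing A] [Algebra Kbar A]
    (φ : A →ₐ[Kbar] LL N) (hφ : ∀ a, ∀ γ ∈ H, γ • φ a = φ a) (a : A) :
    Psi hL (liftPsi hL φ hφ a) = φ a :=
  (exists_Psi_eq_of_fixed hL (φ a) (hφ a)).choose_spec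

theorem smul_smul_Psi_of_mem_normalizer (hL : IsLvl F₀ H N) {σ : SL(2, ℤ)}
    (hσ : σ ∈ Subgroup.normalizer (H : Set SL(2, ℤ))) (u : FB F₀) (γ : SL(2, ℤ)) (hγ : γ ∈ H) :
    γ • σ⁻¹ • Psi hL u = σ⁻¹ • Psi hL u := by
  have h1 : σ * γ * σ⁻¹ ∈ H := (Subgroup.mem_normalizer_iff.1 hσ γ).1 hγ
  have h2 : γ * σ⁻¹ = σ⁻¹ * (σ * γ * σ⁻¹) := by group
  rw [← mul_smul, h2, mul_smul, smul_Psi_of_mem hL _ h1]

/-- `u ↦ u ∘ σ` as an endomorphism of `FB F₀`, for `σ` in the normaliser of `H`. -/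
def conjHom (hL : IsLvl F₀ H N) (σ : SL(2, ℤ)) (hσ : σ ∈ Subgroup.normalizer (H : Set SL(2, ℤ))) :
    FB F₀ →ₐ[Kbar] FB F₀ :=
  liftPsi hL ((smulAlg N σ⁻¹).comp (Psi hL))
    (fun u γ hγ => smul_smul_Psi_of_mem_normalizer hL hσ u γ hγ)

theorem Psi_conjHom (hL : IsLvl F₀ H N) (σ : SL(2, ℤ)) (hσ : σ ∈ Subgroup.normalizer (H : Set SL(2, ℤ))) (u : FB F₀) :
    Psi hL (conjHom hL σ hσ u) = σ⁻¹ • Psi hL u :=
  Psi_liftPsi hL _ _ u

/-- `u ↦ u ∘ σ` as an automorphism of `FB F₀`, for `σ` in the normaliser of `H`. -/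
def conjAut (hL : IsLvl F₀ H N) (σ : SL(2, ℤ)) (hσ : σ ∈ Subgroup.normalizer (H : Set SL(2, ℤ))) :
    FB F₀ ≃ₐ[Kbar] FB F₀ :=
  AlgEquiv.ofAlgHom (conjHom hL σ hσ) (conjHom hL σ⁻¹ (inv_mem hσ))
    (AlgHom.ext fun u => Psi_injective hL (by
      rw [AlgHom.comp_apply, Psi_conjHom, Psi_conjHom, inv_inv, inv_smul_smul]
      rfl))
    (AlgHom.ext fun u => Psi_injective hL (by
      rw [AlgHom.comp_apply, Psi_conjHom, Psi_conjHom, inv_inv, smul_inv_smul]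
      rfl))

theorem Psi_conjAut (hL : IsLvl F₀ H N) (σ : SL(2, ℤ)) (hσ : σ ∈ Subgroup.normalizer (H : Set SL(2, ℤ))) (u : FB F₀) :
    Psi hL (conjAut hL σ hσ u) = σ⁻¹ • Psi hL u :=
  Psi_conjHom hL σ hσ u

theorem real_conjAut (hL : IsLvl F₀ H N) (σ : SL(2, ℤ)) (hσ : σ ∈ Subgroup.normalizer (H : Set SL(2, ℤ))) (u : FB F₀) :
    real hL (conjAut hL σ hσ u) = (sl σ)⁻¹ • real hL u := by
  rw [U.real_apply, Psi_conjAut, embL_smul, map_inv, U.real_apply]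

/-- `conjAut` only depends on the class modulo `H`. -/
theorem conjAut_eq_of_mul_inv_mem (hL : IsLvl F₀ H N) {σ τ : SL(2, ℤ)} (hσ : σ ∈ Subgroup.normalizer (H : Set SL(2, ℤ)))
    (hτ : τ ∈ Subgroup.normalizer (H : Set SL(2, ℤ))) (h : σ * τ⁻¹ ∈ H) : conjAut hL σ hσ = conjAut hL τ hτ := by
  refine AlgEquiv.ext fun u => Psi_injective hL ?_
  rw [Psi_conjAut, Psi_conjAut]
  have h2 : τ⁻¹ = σ⁻¹ * (σ * τ⁻¹) := by group
  rw [h2, mul_smul, smul_Psi_of_mem hL _ h]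

theorem conjAut_mul (hL : IsLvl F₀ H N) {σ τ : SL(2, ℤ)} (hσ : σ ∈ Subgroup.normalizer (H : Set SL(2, ℤ)))
    (hτ : τ ∈ Subgroup.normalizer (H : Set SL(2, ℤ))) (u : FB F₀) :
    conjAut hL (σ * τ) (mul_mem hσ hτ) u = conjAut hL τ hτ (conjAut hL σ hσ u) := by
  apply Psi_injective hL
  rw [Psi_conjAut, Psi_conjAut, Psi_conjAut, mul_inv_rev, mul_smul]

end Fermat.Agent.S48.BB.T

end
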