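/-
S48, block BB/T (architect helper25).  TASK BB-T-7 (proofs: helper297).
The diamond action `(ℤ/M)ˣ → Aut (FB (F1Q M 1) / ℚ̄)`, `⟨d⟩ u = u ∘ σ_d`, `σ_d ∈ Γ₀(M)` with lower right entry `d`.

PROOFS.
* `Psi_diamondAut_of`: `conjAut_eq_of_mul_inv_mem` + `mem_H1_one_of_dd_eq` + `H.dd_sig`.
* `diamond.map_mul'`: `conjAut_mul`, `dd_mul`; `map_one'`: `conjAut hL (sig M 1) = conjAut hL 1`, `Psi_injective`.
* `real_diamond`: `real_conjAut`; `Finset.prod` over `Unit` (`Fintype.prod_unique` / `Finset.univ_unique`); `sl σ = ⟨mapGL ℝ σ, _⟩` is `rfl`/`Subtype.ext rfl`.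
* `dvd_ord_diamond`: `dvd_ord_map (β := (diamond hL d).toAlgHom) (jB hL) (transcendental_jB hL)`, instance `U.isFF1 hL`.
* `diamond_gal`: let `R := {x : FB F₀ | ∃ f : LaurentSeries ℚ, x = coeffEmb f}` (rational elements; they are fixed by
  `arithmeticRingAut`, `coe_arithmeticRingAut_apply`, `coeffMap` of `coeffEmb`).  STEP 1: `D (ofQ f) ∈ R` for all `f ∈ F1Q M 1`:
  the set of the `f ∈ ℚ((q))` with (`f ∈ F1Q M 1` and `D (ofQ f) ∈ R`) is closed under the field operations and contains `ℚ`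
  (`IntermediateField.adjoin_induction` after writing `F1Q M 1 = adjoin ℚ (range (uQ M) ∪ (modularFunctionFieldFull (M * 1)))`,
  `IntermediateField.adjoin_union`/`sup`), contains `uQ M a` by `hDR` (with `g := Psi hL (ofQ _)`, `realises_Psi_ofQ`, `Psi_eq_iff`), and
  `D` FIXES `ofQ f` for `f ∈ modularFunctionFieldFull (M * 1)`: `Psi hL (ofQ f) = PsiL (M * 1) ⟨coeffEmb f, _⟩` (`Psi_eq_iff`, `texpLL_PsiL`),
  which is fixed by `Γ₀(M * 1) = Γ₀(M)` (`smul_PsiL_of_mem_Gamma0`).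
  STEP 2: `U.FB_induction` on `u`: both sides are ring homomorphisms in `u`; `hQ`: STEP 1; `hc`: `arithmeticRingAut_algebraMap`, `AlgEquiv.commutes`.
-/
import Fermat.Agent.S48.BB.T.Lift
import Fermat.Agent.S48.BB.T.KumNorm
import Fermat.Agent.S48.BB.T.Mat

set_option autoImplicit false

noncomputable section

namespace Fermat.Agent.S48.BB.T

open ModularCurve AlgebraicCurve CongruenceSubgroup Matrix.SpecialLinearGroup
open Fermat.Agent.S24 Fermat.Agent.GAL.Mult Fermat.Agent.S48.A Fermat.Agent.S48.BB.H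
open Fermat.Agent.S48.BB.U
open scoped MatrixGroups

/-- INPUT from the blocks P/U1: the translates by `Γ₀(M)` of the generators `u_a = e_a E₄² / Δ` have rational
`q`-expansions.  (In fact `u_a ∘ γ = u_{a * a(γ)}`, `a(γ)` the upper left entry: see `DiamondGen`.) -/
def DiamondRat (M : ℕ) [NeZero M] : Prop :=
  ∀ γ ∈ Gamma0 M, ∀ (a : ZMod M) (g : LL (M * 1)), Realises (M * 1) g (uQ M a) →
    ∃ f : LaurentSeries ℚ, Realises (M * 1) (γ⁻¹ • g) f

/-- The precise form of `DiamondRat`. -/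
def DiamondGen (M : ℕ) [NeZero M] : Prop :=
  ∀ γ ∈ Gamma0 M, ∀ (a : ZMod M) (g : LL (M * 1)), Realises (M * 1) g (uQ M a) →
    Realises (M * 1) (γ⁻¹ • g) (uQ M (a * ((γ 0 0 : ℤ) : ZMod M)))

theorem DiamondGen.rat {M : ℕ} [NeZero M] (h : DiamondGen M) : DiamondRat M :=
  fun γ hγ a g hg => ⟨_, h γ hγ a g hg⟩

variable {M : ℕ} [NeZero M] (hL : IsLvl (F1Q M 1) (H1 M 1) (M * 1))

/-- `⟨d⟩ u = u ∘ σ_d`. -/
def diamondAut (d : ZMod M) : FB (F1Q M 1) ≃ₐ[Kbar] FB (F1Q M 1) :=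
  conjAut hL (sig M d) (mem_normalizer_of_mem_Gamma0 M (sig_mem M d))

theorem Psi_diamondAut (d : ZMod M) (u : FB (F1Q M 1)) :
    Psi hL (diamondAut hL d u) = (sig M d)⁻¹ • Psi hL u :=
  Psi_conjAut hL _ _ u

theorem Psi_diamondAut_of {d : ZMod M} (hd : IsUnit d) {γ : SL(2, ℤ)} (hγ : γ ∈ Gamma0 M)
    (hγd : dd M γ = d) (u : FB (F1Q M 1)) :
    Psi hL (diamondAut hL d u) = γ⁻¹ • Psi hL u := by
  have h := conjAut_eq_of_mul_inv_mem hL (mem_normalizer_of_mem_Gamma0 M (sig_mem M d))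
    (mem_normalizer_of_mem_Gamma0 M hγ)
    (mem_H1_one_of_dd_eq M (sig_mem M d) hγ (by rw [dd_sig hd, hγd]))
  show Psi hL (conjAut hL (sig M d) _ u) = _
  rw [h, Psi_conjAut]

/-- **The diamond action.** -/
def diamond : (ZMod M)ˣ →* (FB (F1Q M 1) ≃ₐ[Kbar] FB (F1Q M 1)) where
  toFun d := diamondAut hL (d : ZMod M)
  map_one' := by
    refine AlgEquiv.ext fun u => Psi_injective hL ?_
    rw [Psi_diamondAut_of hL (d := ((1 : (ZMod M)ˣ) : ZMod M)) (Units.isUnit _)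
      (Subgroup.one_mem _) (by rw [dd_one, Units.val_one]) u, inv_one, one_smul]
    rfl
  map_mul' d e := by
    refine AlgEquiv.ext fun u => Psi_injective hL ?_
    rw [Psi_diamondAut_of hL (d := ((d * e : (ZMod M)ˣ) : ZMod M)) (Units.isUnit _)
      (Subgroup.mul_mem _ (sig_mem M (e : ZMod M)) (sig_mem M (d : ZMod M)))
      (by rw [dd_mul (sig_mem M _), dd_sig (Units.isUnit _), dd_sig (Units.isUnit _), Units.val_mul,
        mul_comm]) u, mul_inv_rev, mul_smul]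
    show _ = Psi hL (diamondAut hL (d : ZMod M) (diamondAut hL (e : ZMod M) u))
    rw [Psi_diamondAut, Psi_diamondAut]

theorem diamond_apply (d : (ZMod M)ˣ) (u : FB (F1Q M 1)) :
    diamond hL d u = diamondAut hL (d : ZMod M) u := rfl

theorem real_diamondAut (d : ZMod M) (u : FB (F1Q M 1)) :
    real hL (diamondAut hL d u) =
      ∏ i : Unit, (⟨repD M d i, repD_det_pos M d i⟩ : GL(2, ℝ)⁺)⁻¹ • real hL u := by
  rw [Fintype.prod_unique]
  exact real_conjAut hL _ _ u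

theorem dvd_ord_diamondAut (d : ZMod M) (n : ℤ) (u : FB (F1Q M 1))
    (hu : ∀ v : Place Kbar (FB (F1Q M 1)), n ∣ v.ord u) (v : Place Kbar (FB (F1Q M 1))) :
    n ∣ v.ord (diamondAut hL d u) := by
  have := U.isFF1 hL
  exact dvd_ord_map (β := (diamondAut hL d).toAlgHom) (jB hL) (transcendental_jB hL) n u hu v

/-- rational elements of `FB F₀` -/
private def Diamond_IsRat {F₀ : IntermediateField ℚ (LaurentSeries ℚ)} (x : FB F₀) : Prop :=
  ∃ f : LaurentSeries ℚ, (x : LaurentSeries Kbar) = coeffEmb Kbar f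

private theorem Diamond_gal_of_isRat {F₀ : IntermediateField ℚ (LaurentSeries ℚ)} {x : FB F₀}
    (hx : Diamond_IsRat x) (σ : Kbar ≃ₐ[ℚ] Kbar) : arithmeticRingAut F₀ σ x = x := by
  obtain ⟨f, hf⟩ := hx
  apply Subtype.ext
  rw [coe_arithmeticRingAut_apply, hf, coeffMap_coeffEmb]

private theorem Diamond_isRat_ofQ {F₀ : IntermediateField ℚ (LaurentSeries ℚ)} (f : F₀) :
    Diamond_IsRat (ofQ f) := ⟨f.1, rfl⟩

/-- if `D` maps a set of generators of `F₀` to rational elements, then it maps `F₀` to rational elements -/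
private theorem Diamond_isRat_of_gen {F₀ : IntermediateField ℚ (LaurentSeries ℚ)}
    (D : FB F₀ ≃ₐ[Kbar] FB F₀) (S : Set (LaurentSeries ℚ)) (hS : F₀ = IntermediateField.adjoin ℚ S)
    (h : ∀ f : F₀, f.1 ∈ S → Diamond_IsRat (D (ofQ f))) (f : F₀) : Diamond_IsRat (D (ofQ f)) := by
  obtain ⟨y, hy⟩ := f
  have key : ∀ (y : LaurentSeries ℚ), y ∈ IntermediateField.adjoin ℚ S → ∀ hy : y ∈ F₀,
      Diamond_IsRat (D (ofQ ⟨y, hy⟩)) := by
    intro y hy'
    induction hy' using IntermediateField.adjoin_induction with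
    | mem y hyS => exact fun hy => h ⟨y, hy⟩ hyS
    | algebraMap c =>
      intro hy
      have h1 : (ofQ ⟨algebraMap ℚ (LaurentSeries ℚ) c, hy⟩ : FB F₀) =
          algebraMap Kbar (FB F₀) (algebraMap ℚ Kbar c) := by
        apply Subtype.ext
        show coeffEmb Kbar (algebraMap ℚ (LaurentSeries ℚ) c) =
          algebraMap Kbar (LaurentSeries Kbar) (algebraMap ℚ Kbar c)
        exact Formal.coeffEmb_algebraMap c
      rw [h1, AlgEquiv.commutes, ← h1]
      exact Diamond_isRat_ofQ _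
    | add a b ha hb h1 h2 =>
      intro hy
      obtain ⟨a', ha'⟩ := h1 (hS ▸ ha)
      obtain ⟨b', hb'⟩ := h2 (hS ▸ hb)
      have h3 : (ofQ ⟨a + b, hy⟩ : FB F₀) = ofQ ⟨a, hS ▸ ha⟩ + ofQ ⟨b, hS ▸ hb⟩ :=
        Subtype.ext (map_add (coeffEmb Kbar) a b)
      refine ⟨a' + b', ?_⟩
      rw [h3, map_add, map_add, ← ha', ← hb']
      rfl
    | inv a ha h1 =>
      intro hy
      obtain ⟨a', ha'⟩ := h1 (hS ▸ ha)
      have h3 : (ofQ ⟨a⁻¹, hy⟩ : FB F₀) = (ofQ ⟨a, hS ▸ ha⟩)⁻¹ :=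
        Subtype.ext (map_inv₀ (coeffEmb Kbar) a)
      refine ⟨a'⁻¹, ?_⟩
      rw [h3, map_inv₀, map_inv₀, ← ha']
      rfl
    | mul a b ha hb h1 h2 =>
      intro hy
      obtain ⟨a', ha'⟩ := h1 (hS ▸ ha)
      obtain ⟨b', hb'⟩ := h2 (hS ▸ hb)
      have h3 : (ofQ ⟨a * b, hy⟩ : FB F₀) = ofQ ⟨a, hS ▸ ha⟩ * ofQ ⟨b, hS ▸ hb⟩ :=
        Subtype.ext (map_mul (coeffEmb Kbar) a b)
      refine ⟨a' * b', ?_⟩
      rw [h3, map_mul, map_mul, ← ha', ← hb']
      rfl
  exact key y (hS ▸ hy) hy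

/-- an automorphism mapping `F₀` to rational elements commutes with the Galois action -/
private theorem Diamond_gal_of_isRat_ofQ {F₀ : IntermediateField ℚ (LaurentSeries ℚ)}
    (D : FB F₀ ≃ₐ[Kbar] FB F₀) (h : ∀ f : F₀, Diamond_IsRat (D (ofQ f))) (σ : Kbar ≃ₐ[ℚ] Kbar)
    (u : FB F₀) : D (arithmeticRingAut F₀ σ u) = arithmeticRingAut F₀ σ (D u) := by
  induction u using FB_induction with
  | hQ f => rw [Diamond_gal_of_isRat (Diamond_isRat_ofQ f), Diamond_gal_of_isRat (h f)]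
  | hc c => rw [arithmeticRingAut_algebraMap, AlgEquiv.commutes, AlgEquiv.commutes,
      arithmeticRingAut_algebraMap]
  | hadd f g hf hg => rw [map_add, map_add, map_add, map_add, hf, hg]
  | hmul f g hf hg => rw [map_mul, map_mul, map_mul, map_mul, hf, hg]
  | hinv f hf => rw [map_inv₀, map_inv₀, map_inv₀, map_inv₀, hf]

private theorem Diamond_F1Q_eq (M r : ℕ) [NeZero (M * r)] :
    F1Q M r = IntermediateField.adjoin ℚ
      (Set.range (uQ M) ∪ (modularFunctionFieldFull (M * r) : Set (LaurentSeries ℚ))) := by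
  rw [IntermediateField.adjoin_union, IntermediateField.adjoin_self]
  rfl

/-- the elements of level `Γ₀` are fixed by the diamond operators -/
private theorem Diamond_fix_full (d : ZMod M) (f : F1Q M 1)
    (hf : f.1 ∈ modularFunctionFieldFull (M * 1)) : diamondAut hL d (ofQ f) = ofQ f := by
  apply Psi_injective hL
  rw [Psi_diamondAut]
  have h1 : Psi hL (ofQ f) =
      PsiL (M * 1) ⟨coeffEmb Kbar f.1, coeffEmb_mem_laurentBaseChange Kbar hf⟩ := by
    rw [Psi_eq_iff, texpLL_PsiL]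
    rfl
  rw [h1]
  refine smul_PsiL_of_mem_Gamma0 _ (Subgroup.inv_mem _ ?_) _
  rw [mul_one]
  exact sig_mem M d

/-- **The diamond operators are defined over `ℚ`.** -/
theorem diamondAut_gal (hDR : DiamondRat M) (d : ZMod M) (σ : Kbar ≃ₐ[ℚ] Kbar)
    (u : FB (F1Q M 1)) :
    diamondAut hL d (arithmeticRingAut (F1Q M 1) σ u) =
      arithmeticRingAut (F1Q M 1) σ (diamondAut hL d u) := by
  refine Diamond_gal_of_isRat_ofQ _ (Diamond_isRat_of_gen _ _ (Diamond_F1Q_eq M 1) ?_) σ u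
  rintro f (⟨a, ha⟩ | hf)
  · have hr : Realises (M * 1) (Psi hL (ofQ f)) (uQ M a) := by
      rw [ha]
      exact realises_Psi_ofQ hL f
    obtain ⟨f₁, hf₁⟩ := hDR (sig M d) (sig_mem M d) a _ hr
    refine ⟨f₁, ?_⟩
    rw [← Psi_diamondAut] at hf₁
    unfold Realises at hf₁
    rw [texpLL_Psi] at hf₁
    exact qExpand_injective (R := Kbar) (N := M * 1) hf₁
  · rw [Diamond_fix_full hL d f hf]
    exact Diamond_isRat_ofQ f

end Fermat.Agent.S48.BB.T

end
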