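/-
S48, block BB/T (architect helper25).  TASK BB-T-1 (proof: helper187).
Abstract field theory: in a uniformisation, the norm from `F'` (group `H'`) to `F` (group `H ≥ H'`)
is the product over a system of representatives of `H / H'`.

PROOF.  `L` is an `F`-algebra through `Ψ`;  `τ i := (g i • ·) ∘ Ψ' : F' →ₐ[F] L` (it is `F`-linear because
`g i ∈ H` fixes `Ψ f = Ψ' (α f)`).  Injectivity of `i ↦ τ i`: if `τ i = τ j` then `(g i)⁻¹ * g j` fixes `Ψ' F'`, so it
is in `H'` (`hU'.mem_of_smul`), so `i = j`.  Cardinality: `H' ≤ H` (`hU.mem_of_smul` + `hU'.smul_of_mem` + `hα`),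
`ι ≃ H ⧸ H'.subgroupOf H`, so `card ι = H'.relIndex H`, `relIndex_mul_index`;
`CL.finrank_eq_index'` for `hU` and `hU'` (finite dimensionality: `CL.finiteDimensional_of_isUniformization`),
`Lib.MulHecke.finrank_adjoin_mul_finrank_along α x`.  Conclude by `Lib.MulHecke.algebraMap_norm_eq_prod`
(separable: char 0).
-/
import Fermat.Agent.S24.CL.Degree
import Fermat.Agent.Lib.MulHecke.Degree
import Fermat.Agent.Lib.MulHecke.NormProd
import Fermat.Agent.S37.HeckeInputs.Main

set_option autoImplicit false

namespace Fermat.Agent.S48.BB.T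

open AlgebraicCurve Fermat.Agent.S24 Fermat.Agent.S37.HeckeInputs

/-- a system of representatives of `H / H'` has `H'.relIndex H` elements -/
theorem NormCoset_card {G ι : Type*} [Group G] {H H' : Subgroup G} [Fintype ι] (g : ι → G)
    (hg : ∀ i, g i ∈ H) (hcov : ∀ γ ∈ H, ∃ i, (g i)⁻¹ * γ ∈ H')
    (hdisj : ∀ i j, (g i)⁻¹ * g j ∈ H' → i = j) : Fintype.card ι = H'.relIndex H := by
  let f : ι → H ⧸ H'.subgroupOf H := fun i => QuotientGroup.mk ⟨g i, hg i⟩
  have hf : Function.Bijective f := by
    constructor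
    · intro i j hij
      apply hdisj
      have h := QuotientGroup.eq.mp hij
      rwa [Subgroup.mem_subgroupOf] at h
    · intro q
      obtain ⟨⟨γ, hγ⟩, rfl⟩ := QuotientGroup.mk_surjective q
      obtain ⟨i, hi⟩ := hcov γ hγ
      refine ⟨i, QuotientGroup.eq.mpr ?_⟩
      rwa [Subgroup.mem_subgroupOf]
  rw [Subgroup.relIndex, Subgroup.index, ← Nat.card_eq_fintype_card]
  exact Nat.card_congr (Equiv.ofBijective f hf)

theorem Psi_normAlong_eq_prod {K F F' L G ι : Type*} [Field K] [CharZero K] [Field F] [Field F']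
    [Field L] [Algebra K F] [Algebra K F'] [Algebra K L] [Group G] [MulSemiringAction G L]
    {x : F} {H H' : Subgroup G} [H.FiniteIndex] [H'.FiniteIndex]
    {Ψ : F →ₐ[K] L} {Ψ' : F' →ₐ[K] L} (α : F →ₐ[K] F')
    (hU : IsUniformization x H Ψ) (hU' : IsUniformization (α x) H' Ψ')
    (hfg : ∃ s : Finset F, IntermediateField.adjoin K (s : Set F) = ⊤)
    (hfg' : ∃ s : Finset F', IntermediateField.adjoin K (s : Set F') = ⊤)
    (hα : ∀ f : F, Ψ' (α f) = Ψ f)
    [Fintype ι] (g : ι → G) (hg : ∀ i, g i ∈ H)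
    (hcov : ∀ γ ∈ H, ∃ i, (g i)⁻¹ * γ ∈ H')
    (hdisj : ∀ i j, (g i)⁻¹ * g j ∈ H' → i = j) (y : F') :
    Ψ (normAlong α y) = ∏ i, g i • Ψ' y := by
  let _ : Algebra F F' := algebraAlong α
  let _ : Algebra F L := Ψ.toRingHom.toAlgebra
  let τ : ι → F' →ₐ[F] L := fun i =>
    { toFun := fun z => g i • Ψ' z
      map_one' := by rw [map_one, smul_one]
      map_mul' := fun a b => by rw [map_mul, smul_mul']
      map_zero' := by rw [map_zero, smul_zero]
      map_add' := fun a b => by rw [map_add, smul_add]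
      commutes' := fun f => by
        show g i • Ψ' (α f) = Ψ f
        rw [hα, hU.smul_of_mem _ (hg i)] }
  have hτ : Function.Injective τ := by
    intro i j hij
    apply hdisj
    apply hU'.mem_of_smul
    intro z
    have h : g i • Ψ' z = g j • Ψ' z := DFunLike.congr_fun hij z
    rw [mul_smul, ← h, inv_smul_smul]
  have hle : H' ≤ H := by
    intro γ hγ
    apply hU.mem_of_smul
    intro f
    rw [← hα, hU'.smul_of_mem γ hγ]
  have hcard : Fintype.card ι = H'.relIndex H := NormCoset_card g hg hcov hdisj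
  have hfd := CL.finiteDimensional_of_isUniformization hU hfg
  have hfd' := CL.finiteDimensional_of_isUniformization hU' hfg'
  have h1 := CL.finrank_eq_index' hU
  have h2 := CL.finrank_eq_index' hU'
  have h3 : Module.finrank (IntermediateField.adjoin K {x}) F * Module.finrank F F' =
      Module.finrank (IntermediateField.adjoin K {α x}) F' :=
    Lib.MulHecke.finrank_adjoin_mul_finrank_along α x
  have h0 : H.index ≠ 0 := Subgroup.FiniteIndex.index_ne_zero
  have h4 : Module.finrank F F' = H'.relIndex H := by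
    rw [h1, h2, ← Subgroup.relIndex_mul_index hle, mul_comm] at h3
    exact Nat.eq_of_mul_eq_mul_right (Nat.pos_of_ne_zero h0) h3
  have hne : Nonempty ι := (hcov 1 H.one_mem).nonempty
  have hpos : 0 < Module.finrank F F' := by
    rw [h4, ← hcard]
    exact Fintype.card_pos
  have : FiniteDimensional F F' := Module.finite_of_finrank_pos hpos
  have : CharZero F := charZero_of_injective_algebraMap (algebraMap K F).injective
  exact Lib.MulHecke.algebraMap_norm_eq_prod τ hτ (hcard.trans h4.symm) y

end Fermat.Agent.S48.BB.T
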