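/-
S48, block BB/T (architect helper25).  TASK BB-T-5 (proofs: helper89).
GENERIC multiplicative Hecke operator.  Data: `F₀ ≤ F₀'`, groups `H`, `H'`, levels `N`, `N'`, a Hecke family `α` for `H`
(integral matrices, `N * det ∣ N'`), a distinguished index `i₀` such that `H` acts transitively on the cosets
`H α i` and `H'` is the stabiliser of `H α i₀`.
  `betaB u := u ∘ α i₀ ∈ FB F₀'`,    `heckeB u := Norm_{FB F₀' / FB F₀} (betaB u)`.
Results: `real (heckeB u) = ∏ i, real u ∘ α i`, and `heckeB` preserves the elements whose divisor is divisible by `n`.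

PROOFS.
* `smul_compLL_of_mem`: `embL_injective`, `embL_smul`, `embL_compLL`; `sl γ • a⁻¹ • x = (a * sl γ⁻¹)⁻¹ • x`, `hstab` for `γ⁻¹`
  gives `a * sl γ⁻¹ = sl δ * a`, and `(sl δ)⁻¹ • real u = real u` (`U.smul_real_of_mem`).
* `Psi_heckeB`: `Psi_normAlong_eq_prod (alphaB hF) (U.isUniformization hL₁) (…hL')` (`alphaB_jB`, `Psi_alphaB`,
  `U.exists_finset_adjoin_eq_top`, `U.finiteIndex`) with `g i := (γ i)⁻¹`, `γ i` chosen by `htrans`.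
    cover: for `γ ∈ H` let `α i₀ γ⁻¹ = δ α i` (`hα.stable`); with `α i₀ γ_i = δ_i α i` get `α i₀ (γ_i γ)⁻¹ = δ δ_i⁻¹ α i₀`,
           so `(γ_i γ)⁻¹ ∈ H'` by `hstab`.
    disjoint: `γ_i γ_j⁻¹ ∈ H'` gives `α i₀ γ_i γ_j⁻¹ = δ α i₀`, so `δ_i α i = δ δ_j α j`, so `i = j` (`hα.disj`).
* `real_heckeB`: apply `embL N'` to `Psi_heckeB`; `sl (γ i)⁻¹ • (a i₀)⁻¹ • x = (a i₀ * sl (γ i))⁻¹ • x = (sl δ_i * a i)⁻¹ • x
  = (a i)⁻¹ • (sl δ_i)⁻¹ • x = (a i)⁻¹ • x`.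
* `dvd_ord_heckeB`: `dvd_ord_normAlong` with `x := jB hL`, `U.transcendental_jB`, instances `U.isFF1 hL`, `U.isFF1 hL'`.
-/
import Fermat.Agent.S48.BB.T.Lift
import Fermat.Agent.S48.BB.T.KumNorm
import Fermat.Agent.S48.BB.T.NormCoset
import Fermat.Agent.S48.BB.T.LevelUp
import Fermat.Agent.Lib.HeckeHom.Abstract

set_option autoImplicit false

noncomputable section

namespace Fermat.Agent.S48.BB.T

open ModularCurve AlgebraicCurve Matrix.SpecialLinearGroup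
open Fermat.Agent.S24 Fermat.Agent.GAL.Mult Fermat.Agent.S48.BB.U Fermat.Agent.Lib.HeckeHom
open Fermat.Agent.S37.HeckeInputs
open scoped MatrixGroups

/-- The data of a generic multiplicative Hecke operator. -/
structure HeckeData (F₀ F₀' : IntermediateField ℚ (LaurentSeries ℚ)) (H H' : Subgroup SL(2, ℤ))
    (N N' : ℕ) [NeZero N] [NeZero N'] (ι : Type) [Fintype ι] where
  hL : IsLvl F₀ H N
  hL' : IsLvl F₀' H' N'
  hF : F₀ ≤ F₀'
  k : ℕ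
  hk : N * k = N'
  α : ι → GL (Fin 2) ℝ
  hdet : ∀ i, 0 < (α i).det.val
  hα : IsHeckeFamily ((mapGL ℝ).comp H.subtype) α
  hint : ∀ i, IsIntLevel N N' ⟨α i, hdet i⟩
  i₀ : ι
  htrans : ∀ i, ∃ γ ∈ H, ∃ δ ∈ H, α i₀ * mapGL ℝ γ = mapGL ℝ δ * α i
  hstab : ∀ γ ∈ H, (γ ∈ H' ↔ ∃ δ ∈ H, α i₀ * mapGL ℝ γ = mapGL ℝ δ * α i₀)

namespace HeckeData

variable {F₀ F₀' : IntermediateField ℚ (LaurentSeries ℚ)} {H H' : Subgroup SL(2, ℤ)}
  {N N' : ℕ} [NeZero N] [NeZero N'] {ι : Type} [Fintype ι] (X : HeckeData F₀ F₀' H H' N N' ι)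

/-- the representatives in `GL(2,ℝ)⁺` -/
def a (i : ι) : GL(2, ℝ)⁺ := ⟨X.α i, X.hdet i⟩

include X in
/-- `F₀` at the level `N'` -/
theorem hL₁ : IsLvl F₀ H N' := IsLvl.levelUp X.hL X.hk

include X in
theorem le : H' ≤ H := by
  intro γ hγ
  apply mem_of_smul_Psi X.hL₁
  intro f
  rw [← Psi_alphaB X.hL₁ X.hL' X.hF f]
  exact smul_Psi_of_mem X.hL' γ hγ _

/-- the relation in `GL(2,ℝ)⁺` deduced from a relation in `GL(2,ℝ)` -/
theorem HeckeGen_rel {i j : ι} {γ δ : SL(2, ℤ)} (h : X.α i * mapGL ℝ γ = mapGL ℝ δ * X.α j) :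
    X.a i * sl γ = sl δ * X.a j :=
  Subtype.ext h

/-- `(u ∘ α i) ∘ γ = u ∘ α j` if `α i γ = δ α j`, `δ ∈ H`. -/
theorem HeckeGen_smul_compLL (u : FB F₀) {i j : ι} {γ δ : SL(2, ℤ)} (hδ : δ ∈ H)
    (h : X.α i * mapGL ℝ γ = mapGL ℝ δ * X.α j) :
    γ⁻¹ • compLL (X.a i) (X.hint i) (Psi X.hL u) = compLL (X.a j) (X.hint j) (Psi X.hL u) := by
  refine (smul_compLL (g := X.a i) (g' := X.a j) (X.hint i) (X.hint j) γ δ (X.HeckeGen_rel h)
    (Psi X.hL u)).trans ?_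
  rw [smul_Psi_of_mem X.hL δ⁻¹ (inv_mem hδ)]

theorem smul_compLL_of_mem (u : FB F₀) (γ : SL(2, ℤ)) (hγ : γ ∈ H') :
    γ • compLL (X.a X.i₀) (X.hint X.i₀) (Psi X.hL u) =
      compLL (X.a X.i₀) (X.hint X.i₀) (Psi X.hL u) := by
  obtain ⟨δ, hδ, h⟩ := (X.hstab γ⁻¹ (inv_mem (X.le hγ))).1 (inv_mem hγ)
  have := X.HeckeGen_smul_compLL u hδ h
  rwa [inv_inv] at this

/-- `u ↦ u ∘ α i₀`. -/
def betaB : FB F₀ →ₐ[Kbar] FB F₀' :=
  liftPsi X.hL' ((compLL (X.a X.i₀) (X.hint X.i₀)).comp (Psi X.hL))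
    (fun u γ hγ => X.smul_compLL_of_mem u γ hγ)

theorem Psi_betaB (u : FB F₀) :
    Psi X.hL' (X.betaB u) = compLL (X.a X.i₀) (X.hint X.i₀) (Psi X.hL u) :=
  Psi_liftPsi X.hL' _ _ u

/-- **The multiplicative Hecke operator** `u ↦ Norm (u ∘ α i₀)`. -/
def heckeB : FB F₀ →* FB F₀ :=
  (normAlong (alphaB X.hF)).comp (X.betaB : FB F₀ →* FB F₀')

theorem heckeB_apply (u : FB F₀) : X.heckeB u = normAlong (alphaB X.hF) (X.betaB u) := rfl

/-- the product formula in `LL N'` -/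
theorem Psi_heckeB (u : FB F₀) :
    Psi X.hL₁ (X.heckeB u) = ∏ i, compLL (X.a i) (X.hint i) (Psi X.hL u) := by
  choose γ hγ δ hδ hrel using X.htrans
  have := finiteIndex X.hL₁
  have := finiteIndex X.hL'
  have hU' : IsUniformization (alphaB X.hF (jB X.hL₁)) H' (Psi X.hL') := by
    rw [alphaB_jB X.hL₁ X.hL' X.hF]
    exact isUniformization X.hL'
  have hcov : ∀ g ∈ H, ∃ i, ((γ i)⁻¹)⁻¹ * g ∈ H' := by
    intro g hg
    obtain ⟨i, ε, hε⟩ := X.hα.stable X.i₀ ⟨g⁻¹, inv_mem hg⟩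
    refine ⟨i, ?_⟩
    rw [inv_inv, X.hstab _ (mul_mem (hγ i) hg)]
    refine ⟨δ i * (ε : SL(2, ℤ))⁻¹, mul_mem (hδ i) (inv_mem ε.2), ?_⟩
    have hε' : X.α X.i₀ * (mapGL ℝ g)⁻¹ = mapGL ℝ (ε : SL(2, ℤ)) * X.α i := by
      simpa using hε
    have h1 : X.α i * mapGL ℝ g = (mapGL ℝ (ε : SL(2, ℤ)))⁻¹ * X.α X.i₀ := by
      rw [eq_inv_mul_iff_mul_eq, ← mul_assoc, ← hε', inv_mul_cancel_right]
    rw [map_mul, ← mul_assoc, hrel i, mul_assoc, h1, map_mul, map_inv, mul_assoc]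
  have hdisj : ∀ i j, ((γ i)⁻¹)⁻¹ * (γ j)⁻¹ ∈ H' → i = j := by
    intro i j hij
    rw [inv_inv] at hij
    obtain ⟨ε, hε, h⟩ := (X.hstab _ (mul_mem (hγ i) (inv_mem (hγ j)))).1 hij
    refine X.hα.disj i j ⟨(δ i)⁻¹ * ε * δ j, mul_mem (mul_mem (inv_mem (hδ i)) hε) (hδ j)⟩ ?_
    have h1 : mapGL ℝ (δ i) * X.α i = mapGL ℝ ε * (mapGL ℝ (δ j) * X.α j) := by
      rw [← hrel i, ← hrel j, ← mul_assoc, ← h, map_mul, map_inv, mul_assoc, mul_assoc,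
        inv_mul_cancel, mul_one]
    show X.α i = mapGL ℝ ((δ i)⁻¹ * ε * δ j) * X.α j
    rw [map_mul, map_mul, map_inv, mul_assoc, mul_assoc, ← h1, inv_mul_cancel_left]
  rw [heckeB_apply, Psi_normAlong_eq_prod (alphaB X.hF) (isUniformization X.hL₁) hU'
    (exists_finset_adjoin_eq_top X.hL₁) (exists_finset_adjoin_eq_top X.hL')
    (Psi_alphaB X.hL₁ X.hL' X.hF) (fun i => (γ i)⁻¹) (fun i => inv_mem (hγ i)) hcov hdisj]
  refine Finset.prod_congr rfl fun i _ => ?_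
  rw [Psi_betaB]
  exact X.HeckeGen_smul_compLL u (hδ i) (hrel i)

/-- **The product formula** in the field of meromorphic functions. -/
theorem real_heckeB (u : FB F₀) :
    real X.hL (X.heckeB u) = ∏ i, (⟨X.α i, X.hdet i⟩ : GL(2, ℝ)⁺)⁻¹ • real X.hL u := by
  rw [← real_levelUp X.hL X.hL₁ X.hk, U.real_apply, Psi_heckeB, map_prod]
  refine Finset.prod_congr rfl fun i _ => ?_
  rw [embL_compLL, U.real_apply]
  rfl

/-- `heckeB` preserves the elements whose divisor is divisible by `n`. -/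
theorem dvd_ord_heckeB (n : ℤ) (u : FB F₀) (hu : ∀ v : Place Kbar (FB F₀), n ∣ v.ord u)
    (v : Place Kbar (FB F₀)) : n ∣ v.ord (X.heckeB u) := by
  have := isFF1 X.hL
  have := isFF1 X.hL'
  exact dvd_ord_normAlong (alphaB X.hF) X.betaB (jB X.hL) (transcendental_jB X.hL) n u hu v

end HeckeData

end Fermat.Agent.S48.BB.T

end
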