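/-
S48, block BB/T (architect helper25).  TASK BB-T-8 (proofs helper70).
The `t`-expansions of `u ∘ (1 j; 0 p)` and of `u ∘ (p 0; 0 1)` for `u ∈ FB F₀`  (`t = q^(1/N')`, `N' = N p`).

PROOFS.  `GAL.Mult.HeckeBridge.heckeMatrix_eq_triMat`, `heckeDiagMatrix_eq_triMat`, then `texpLL_compLL_tri`, `U.texpLL_Psi`.
* upper: `(a, b, d) = (1, j, p)`, `e = 1` (`1 * (p * N) = N' * 1`), `ξ = zetaK (p * N) ^ j`;
  `twist ξ (qExpand N u) = qExpand N (twist (ξ ^ N) u)`; `(zetaK (p * N) ^ j) ^ N = zetaK p ^ j`.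
* diag: `(a, b, d) = (p, 0, 1)`, `e = p * p` (`(p * p) * (1 * N) = N' * p`), `ξ = 1`, `twist_one`; `qExpand_qExpand`, `qExpand_congr`.
-/
import Fermat.Agent.S48.BB.U.Basic
import Fermat.Agent.S48.BB.T.CompLL
import Fermat.Agent.GAL.Mult.HeckeBridge
import Fermat.Agent.Lib.MulHecke.Basic

set_option autoImplicit false

namespace Fermat.Agent.S48.BB.T

open ModularCurve
open Fermat.Agent.S24 Fermat.Agent.S24.B Fermat.Agent.GAL.Mult
open scoped MatrixGroups

private theorem QExp_twist_qExpand (m : ℕ) [NeZero m] (ξ : Kbarˣ) (f : LaurentSeries Kbar) :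
    twist ξ (qExpand Kbar m f) = qExpand Kbar m (twist (ξ ^ m) f) := by
  ext k
  by_cases hk : (m : ℤ) ∣ k
  · obtain ⟨j, rfl⟩ := hk
    rw [twist_coeff, qExpand_coeff_mul, qExpand_coeff_mul, twist_coeff, zpow_mul, zpow_natCast]
  · rw [twist_coeff, qExpand_coeff_of_not_dvd m _ hk, qExpand_coeff_of_not_dvd m _ hk, mul_zero]

private theorem QExp_zetaK_pow (p N : ℕ) [NeZero p] [NeZero N] :
    zetaK (p * N) ^ N = zetaK p := by
  have hp : (p : ℂ) ≠ 0 := by exact_mod_cast NeZero.ne p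
  have hN : (N : ℂ) ≠ 0 := by exact_mod_cast NeZero.ne N
  apply Units.ext
  apply iota_injective
  rw [Units.val_pow_eq_pow_val, map_pow, iota_zetaK, iota_zetaK, ← Complex.exp_nat_mul]
  congr 1
  push_cast
  field_simp

variable {F₀ : IntermediateField ℚ (LaurentSeries ℚ)} {H : Subgroup SL(2, ℤ)}
  {N N' : ℕ} [NeZero N] [NeZero N'] {p : ℕ} [NeZero p]

theorem texpLL_compLL_upper (hL : IsLvl F₀ H N) (hN : N * p = N') {g : GL(2, ℝ)⁺}
    (hg : IsIntLevel N N' g) (j : ℕ) (hgj : (g : GL (Fin 2) ℝ) = ModularForm.heckeMatrix p j)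
    (u : FB F₀) :
    texpLL N' (compLL g hg (U.Psi hL u)) =
      qExpand Kbar N (twist (zetaK p ^ j) (u : LaurentSeries Kbar)) := by
  have hgt : (g : GL (Fin 2) ℝ) = triMat 1 (j : ℤ) (p : ℤ) one_pos (HeckeBridge.lpos p) := by
    rw [hgj, HeckeBridge.heckeMatrix_eq_triMat]
  have h1 := texpLL_compLL_tri hg 1 (j : ℤ) (p : ℤ) one_pos (HeckeBridge.lpos p) hgt 1
    (by rw [← hN]; push_cast; ring) (zetaK (p * N) ^ j) (by
      have := iota_zetaK_zpow (p * N) (j : ℤ)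
      rw [zpow_natCast] at this
      rw [this]
      push_cast
      rfl) (U.Psi hL u)
  rw [h1, qExpand_one_apply, U.texpLL_Psi, QExp_twist_qExpand, ← pow_mul, mul_comm j N, pow_mul,
    QExp_zetaK_pow]

theorem texpLL_compLL_diag (hL : IsLvl F₀ H N) (hN : N * p = N') {g : GL(2, ℝ)⁺}
    (hg : IsIntLevel N N' g) (hgd : (g : GL (Fin 2) ℝ) = ModularForm.heckeDiagMatrix p)
    (u : FB F₀) :
    texpLL N' (compLL g hg (U.Psi hL u)) =
      qExpand Kbar N (qExpand Kbar (p * p) (u : LaurentSeries Kbar)) := by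
  have hgt : (g : GL (Fin 2) ℝ) = triMat (p : ℤ) 0 1 (HeckeBridge.lpos p) one_pos := by
    rw [hgd, HeckeBridge.heckeDiagMatrix_eq_triMat]
  have h1 := texpLL_compLL_tri hg (p : ℤ) 0 1 (HeckeBridge.lpos p) one_pos hgt (p * p)
    (by rw [← hN]; push_cast; ring) 1 (by simp) (U.Psi hL u)
  rw [h1, twist_one, U.texpLL_Psi, qExpand_qExpand, qExpand_qExpand]
  exact qExpand_congr (mul_comm _ _) _

end Fermat.Agent.S48.BB.T
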