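/-
S48, block BB/T (architect helper25).  TASK BB-T-9 (proofs: helper202).
**DELIVERABLE OF BLOCK T**: the multiplicative Hecke operators `heckeT` on `FB (F1Q M 1)`:
  * `real_heckeT`    : `real (T_p u) = ∏ x, real u ∘ repT1 M p x`                      (interface with M);
  * `dvd_ord_heckeT` : `T_p` preserves the elements whose divisor is divisible by `n`  (interface with E);
  * `qExpand_heckeT` : `(T_p u)(q^p) = (⟨p⟩ u)(q^(p²)) ∏_{b<p} u(ζ_p^b q)`               (interface with E);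
and (file `Diamond.lean`) `diamond`, `diamondAut`, `real_diamondAut`, `dvd_ord_diamondAut`, `diamondAut_gal`.
INPUTS: `LvlStatement` (P + U1), `DiamondRat M` (P + U1), `IsHeckeFamily (inclH (H1 M 1)) (repT1 M p)` (H).

PROOF of `qExpand_heckeT`.  Let `X := heckeData …`, `N = M * 1`, `N' = M * p`.  Apply `texpLL N'` to `X.Psi_heckeB u`:
  `qExpand N' (T u) = ∏ x, texpLL N' (compLL (X.a x) _ (Psi hL u))`   (`U.texpLL_Psi`, `map_prod`);
  `Fintype.prod_option` (`GAL.Mult.HeckeBridge.prod_onePoint`, `prod_zmod_val`);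
  `x = j`: `texpLL_compLL_upper` (`H.repT1_coe`);   `x = ∞`: `compLL_repT1_infty` then `texpLL_compLL_diag`.
  Finally `qExpand N' = qExpand N ∘ qExpand p` (`qExpand_qExpand`, `qExpand_congr`), `map_mul`, `map_prod`, `qExpand_injective N`.
PROOF of `compLL_repT1_infty`: `smul_compLL` with `γ = 1`, `δ = sig M p`, `g' = diag` (`H.repT1_infty`), `Psi_diamondAut`.
-/
import Fermat.Agent.S48.BB.T.HeckeGen
import Fermat.Agent.S48.BB.T.Diamond
import Fermat.Agent.S48.BB.T.QExp

set_option autoImplicit false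

noncomputable section

namespace Fermat.Agent.S48.BB.T

open ModularCurve AlgebraicCurve CongruenceSubgroup Matrix.SpecialLinearGroup
open Fermat.Agent.S24 Fermat.Agent.S24.B Fermat.Agent.GAL.Mult Fermat.Agent.S48.A
open Fermat.Agent.S48.BB.H Fermat.Agent.Lib.HeckeHom
open scoped MatrixGroups OnePoint

theorem Main_qExpand_congr {a b : ℕ} [NeZero a] [NeZero b] (h : a = b)
    (f : LaurentSeries Kbar) : qExpand Kbar a f = qExpand Kbar b f := by
  subst h
  rfl

theorem Main_qExpand_qExpand (a b : ℕ) [NeZero a] [NeZero b] (f : LaurentSeries Kbar) :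
    qExpand Kbar a (qExpand Kbar b f) = qExpand Kbar (a * b) f := by
  ext k
  by_cases ha : (a : ℤ) ∣ k
  · obtain ⟨j, rfl⟩ := ha
    rw [qExpand_coeff_mul]
    by_cases hb : (b : ℤ) ∣ j
    · obtain ⟨i, rfl⟩ := hb
      rw [qExpand_coeff_mul]
      have h1 : (a : ℤ) * ((b : ℤ) * i) = ((a * b : ℕ) : ℤ) * i := by push_cast; ring
      rw [h1, qExpand_coeff_mul]
    · rw [qExpand_coeff_of_not_dvd b f hb, qExpand_coeff_of_not_dvd (a * b) f]
      rintro ⟨i, hi⟩
      apply hb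
      refine ⟨i, ?_⟩
      have ha0 : (a : ℤ) ≠ 0 := by exact_mod_cast NeZero.ne a
      apply mul_left_cancel₀ ha0
      rw [hi]
      push_cast
      ring
  · rw [qExpand_coeff_of_not_dvd a _ ha, qExpand_coeff_of_not_dvd (a * b) f]
    rintro ⟨i, hi⟩
    apply ha
    refine ⟨b * i, ?_⟩
    rw [hi]
    push_cast
    ring

variable (M p : ℕ) [NeZero M] [NeZero p]

/-- The Hecke data of `T_p` on `±Γ₁(M)`. -/
def heckeData (hL : IsLvl (F1Q M 1) (H1 M 1) (M * 1)) (hL' : IsLvl (F1Q M p) (H1 M p) (M * p))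
    (hpM : Nat.Coprime p M) (hfam : IsHeckeFamily (Fermat.Agent.S48.BB.M.inclH (H1 M 1)) (repT1 M p)) :
    HeckeData (F1Q M 1) (F1Q M p) (H1 M 1) (H1 M p) (M * 1) (M * p) (OnePoint (ZMod p)) where
  hL := hL
  hL' := hL'
  hF := F1Q_le M p
  k := p
  hk := by rw [mul_one]
  α := repT1 M p
  hdet := repT1_det_pos M p
  hα := hfam
  hint := isIntLevel_repT1 M p
  i₀ := ∞
  htrans := repT1_trans M p hpM
  hstab := repT1_stab M p hpM

variable {M p}
variable (hL : IsLvl (F1Q M 1) (H1 M 1) (M * 1)) (hL' : IsLvl (F1Q M p) (H1 M p) (M * p))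
  (hpM : Nat.Coprime p M) (hfam : IsHeckeFamily (Fermat.Agent.S48.BB.M.inclH (H1 M 1)) (repT1 M p))

/-- **The multiplicative Hecke operator `T_p` on the function field of `±Γ₁(M)`.** -/
def heckeT : FB (F1Q M 1) →* FB (F1Q M 1) := (heckeData M p hL hL' hpM hfam).heckeB

theorem real_heckeT (u : FB (F1Q M 1)) :
    U.real hL (heckeT hL hL' hpM hfam u) =
      ∏ x : OnePoint (ZMod p),
        (⟨repT1 M p x, repT1_det_pos M p x⟩ : GL(2, ℝ)⁺)⁻¹ • U.real hL u :=
  (heckeData M p hL hL' hpM hfam).real_heckeB u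

theorem dvd_ord_heckeT (n : ℤ) (u : FB (F1Q M 1))
    (hu : ∀ v : Place Kbar (FB (F1Q M 1)), n ∣ v.ord u) (v : Place Kbar (FB (F1Q M 1))) :
    n ∣ v.ord (heckeT hL hL' hpM hfam u) :=
  (heckeData M p hL hL' hpM hfam).dvd_ord_heckeB n u hu v

theorem isIntLevel_diag : IsIntLevel (M * 1) (M * p)
    ⟨ModularForm.heckeDiagMatrix p, by simpa using ModularForm.det_heckeDiagMatrix_pos p⟩ := by
  refine ⟨!![(p : ℤ), 0; 0, 1], ?_, ?_⟩
  · rw [Matrix.det_fin_two_of]
    push_cast
    simp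
  · show ((ModularForm.heckeDiagMatrix p : GL (Fin 2) ℝ) : Matrix (Fin 2) (Fin 2) ℝ) = _
    rw [ModularForm.val_heckeDiagMatrix (NeZero.ne p)]
    ext i j
    fin_cases i <;> fin_cases j <;> simp

theorem compLL_repT1_infty (u : FB (F1Q M 1)) :
    compLL ⟨repT1 M p ∞, repT1_det_pos M p ∞⟩ (isIntLevel_repT1 M p ∞) (U.Psi hL u) =
      compLL _ (isIntLevel_diag (M := M) (p := p))
        (U.Psi hL (diamondAut hL (p : ZMod M) u)) := by
  have h := smul_compLL (isIntLevel_repT1 M p ∞) (isIntLevel_diag (M := M) (p := p)) 1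
    (sig M (p : ZMod M)) (by
      apply Subtype.ext
      simp [repT1_infty, coe_sl]) (U.Psi hL u)
  rw [inv_one, one_smul] at h
  rw [h, Psi_diamondAut]

/-- **The `q`-expansion of `T_p u`**: `(T_p u)(q^p) = (⟨p⟩ u)(q^(p²)) ∏_{b<p} u(ζ_p^b q)`. -/
theorem qExpand_heckeT (u : FB (F1Q M 1)) :
    qExpand Kbar p ((heckeT hL hL' hpM hfam u : FB (F1Q M 1)) : LaurentSeries Kbar) =
      qExpand Kbar (p * p) ((diamondAut hL (p : ZMod M) u : FB (F1Q M 1)) : LaurentSeries Kbar) *
        ∏ b ∈ Finset.range p, twist (zetaK p ^ b) (u : LaurentSeries Kbar) := by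
  set X := heckeData M p hL hL' hpM hfam with hX
  have hN : M * 1 * p = M * p := by rw [mul_one]
  apply ModularCurve.qExpand_injective (R := Kbar) (M * 1)
  have h1 := congrArg (texpLL (M * p)) (X.Psi_heckeB u)
  rw [U.texpLL_Psi, map_prod, HeckeBridge.prod_onePoint] at h1
  have hinf : texpLL (M * p) (compLL (X.a ∞) (X.hint ∞) (U.Psi X.hL u)) =
      qExpand Kbar (M * 1) (qExpand Kbar (p * p)
        ((diamondAut hL (p : ZMod M) u : FB (F1Q M 1)) : LaurentSeries Kbar)) := by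
    have h2 := compLL_repT1_infty (p := p) hL u
    have h3 : compLL (X.a ∞) (X.hint ∞) (U.Psi X.hL u) =
      compLL ⟨repT1 M p ∞, repT1_det_pos M p ∞⟩ (isIntLevel_repT1 M p ∞) (U.Psi hL u) := rfl
    rw [h3, h2]
    exact texpLL_compLL_diag hL hN _ rfl _
  have hfin : ∀ j : ZMod p, texpLL (M * p) (compLL (X.a (j : OnePoint (ZMod p)))
      (X.hint (j : OnePoint (ZMod p))) (U.Psi X.hL u)) =
      qExpand Kbar (M * 1) (twist (zetaK p ^ j.val) (u : LaurentSeries Kbar)) := by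
    intro j
    exact texpLL_compLL_upper hL hN _ j.val (repT1_coe M p j) u
  rw [hinf, Finset.prod_congr rfl (fun j _ => hfin j),
    HeckeBridge.prod_zmod_val p (fun b => qExpand Kbar (M * 1)
      (twist (zetaK p ^ b) (u : LaurentSeries Kbar))), ← map_prod, ← map_mul] at h1
  rw [← h1, Main_qExpand_qExpand]
  exact Main_qExpand_congr hN _

end Fermat.Agent.S48.BB.T

end
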