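/-
S48, block BB, sub-block T-d (owner helper91).  CONVERSE OF THE MULTIPLIER CONSTRUCTION:
for `hL : IsLvl F₀ H N`, an element `u` of `FB F₀` which has an `n`-th root in the field of
meromorphic functions on the upper half plane whose multiplier system `ψ` kills the parabolic and the
elliptic elements of `H` is a Kummer element (its divisor is divisible by `n`).

* `dvd_ord_of_pow_eq_PD` : abstract version (`NV2.dvd_ord_of_pow_eq` with point data);
* `embL_liftLL`, `Psi_level_mul` : compatibilities of the change of level;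
* `exists_LL_root` : an `n`-th root in `MM` of an element of `LL N` lies in `LL (N * n)`;
* `coversPD` : every place of `FB F₀` is seen by a point datum;
* `isKum_of_isMult` : the main statement.
-/
import Fermat.Agent.S48.BB.M.Inst
import Fermat.Agent.S48.BB.U.Level
import Fermat.Agent.S48.BB.U2.Points
import Fermat.Agent.NV2.Abs.RootDvd
import Fermat.Agent.NV2.Points

set_option autoImplicit false

namespace Fermat.Agent.S48.BB.T

open UpperHalfPlane ModularCurve AlgebraicCurve IntermediateField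
open Fermat.Agent.S24 Fermat.Agent.S24.B Fermat.Agent.S24.FF Fermat.Agent.GAL.Mult
open scoped MatrixGroups WithZero

section Abs

variable {K F L G : Type*} [Field K] [Field F] [Algebra K F] [Field L] [Algebra K L]
  [Group G] [MulSemiringAction G L]

/-- Every place of `F` is seen by a point datum whose rotation element is `1` or lies in `S`. -/
def CoversPD (x : F) (Ψ : F →ₐ[K] L) (S : Set G) : Prop :=
  ∀ v : Place K F, ∃ (y : F) (δ : G) (E : ℕ) (V : Valuation L ℤᵐ⁰),
    (δ = 1 ∨ δ ∈ S) ∧ K⟮y⟯ = K⟮x⟯ ∧ IsPointDatum Ψ y V δ E ∧ 0 < v.ord y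

variable {x : F} {H : Subgroup G} {Ψ : F →ₐ[K] L} {S : Set G}
variable [IsAlgClosed K] [CharZero K] [H.FiniteIndex]

theorem dvd_ord_of_pow_eq_PD (hx : Transcendental K x) (hU : IsUniformization x H Ψ)
    [FiniteDimensional K⟮x⟯ F] (hcov : CoversPD x Ψ S) (n : ℕ) (u : F) (hu : u ≠ 0) (h : L)
    (hpow : h ^ n = Ψ u) (hfix : ∀ η ∈ NV2.peElts H S, η • h = h) (v : Place K F) :
    (n : ℤ) ∣ v.ord u := by
  rcases Nat.eq_zero_or_pos n with rfl | hn
  · rw [pow_zero] at hpow
    have hu1 : u = 1 := Ψ.toRingHom.injective (by simpa using hpow.symm)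
    rw [hu1, v.ord_one]
    exact dvd_zero _
  obtain ⟨y, δ, E, V, hδ, hy, hP, hv⟩ := hcov v
  obtain ⟨g, m, l, hm, hl, hml, hV, hk⟩ := NV2.exists_conj_data hx hU hy hP v hv
  have hΨu : Ψ u ≠ 0 := fun h0 => hu (Ψ.toRingHom.injective (by simpa using h0))
  have hh : h ≠ 0 := by
    rintro rfl
    rw [zero_pow hn.ne'] at hpow
    exact hΨu hpow.symm
  have hηH : g⁻¹ * δ ^ l * g ∈ H := (hk l).2 dvd_rfl
  have hηfix : (g⁻¹ * δ ^ l * g) • h = h := by
    rcases hδ with rfl | hδ
    · simp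
    · exact hfix _ ⟨hηH, δ, hδ, l, g, rfl⟩
  have hgh : g • h ≠ 0 := (smul_ne_zero_iff_ne g).2 hh
  have hfix' : δ ^ l • (g • h) = g • h := by rw [NV2.RootDvd_smul_conj, hηfix]
  obtain ⟨k, hVk⟩ := hP.V_dvd l (g • h) hgh hfix'
  have hEm : E / Nat.gcd E l = m := by
    rw [← hml, Nat.gcd_mul_left_left, Nat.mul_div_cancel _ hl]
  rw [hEm] at hVk
  have h1 : V ((g • h) ^ n) = WithZero.exp (-((m : ℤ) * v.ord u)) := by
    rw [← smul_pow', hpow, hV u hu]
  rw [map_pow, hVk, ← WithZero.exp_nsmul, WithZero.exp_inj] at h1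
  have hm' : (m : ℤ) ≠ 0 := by exact_mod_cast hm.ne'
  refine ⟨-k, ?_⟩
  apply mul_left_cancel₀ hm'
  rw [nsmul_eq_mul] at h1
  linear_combination h1

end Abs

section Level

variable {N : ℕ} [NeZero N] (k : ℕ) [NeZero k]

theorem abToHol_liftAB (f : AB N) : abToHol (N * k) (U.liftAB N k f) = abToHol N f := rfl

theorem embL_liftLL (x : LL N) : embL (N * k) (U.liftLL N k x) = embL N x := by
  have h : (embL (N * k)).toRingHom.comp (U.liftLL N k).toRingHom = (embL N).toRingHom := by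
    apply IsLocalization.ringHom_ext (nonZeroDivisors (AB N))
    refine RingHom.ext fun f => ?_
    show embL (N * k) (U.liftLL N k (algebraMap (AB N) (LL N) f)) =
      embL N (algebraMap (AB N) (LL N) f)
    rw [U.liftLL_algebraMap, embL_algebraMap, embL_algebraMap, abToHol_liftAB]
  exact RingHom.congr_fun h x

theorem Psi_level_mul {F₀ : IntermediateField ℚ (LaurentSeries ℚ)} {H : Subgroup SL(2, ℤ)}
    (hL : IsLvl F₀ H N) (u : FB F₀) :
    U.Psi (U.isLvl_level_mul k hL) u = U.liftLL N k (U.Psi hL u) := by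
  rw [U.Psi_eq_iff, U.texpLL_liftLL, U.texpLL_Psi, qExpand_qExpand]
  exact qExpand_congr (mul_comm k N) _

theorem real_level_mul {F₀ : IntermediateField ℚ (LaurentSeries ℚ)} {H : Subgroup SL(2, ℤ)}
    (hL : IsLvl F₀ H N) (u : FB F₀) :
    embL (N * k) (U.Psi (U.isLvl_level_mul k hL) u) = embL N (U.Psi hL u) := by
  rw [Psi_level_mul, embL_liftLL]

end Level

section Root

variable {N : ℕ} [NeZero N] {n : ℕ} [NeZero n]

/-- **An `n`-th root in `MM` of an element of `LL N` lies in `LL (N * n)`.** -/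
theorem exists_LL_root (y : LL N) (hy : y ≠ 0) (h : MM) (hh : h ^ n = embL N y) :
    ∃ h₁ : LL (N * n), embL (N * n) h₁ = h := by
  have hn : 0 < n := Nat.pos_of_ne_zero (NeZero.ne n)
  obtain ⟨a, b, hb, hab⟩ := IsFractionRing.div_surjective (A := AB N) y
  have hb0 : b ≠ 0 := nonZeroDivisors.ne_zero hb
  have hbL : algebraMap (AB N) (LL N) b ≠ 0 := by
    simpa using hb0
  set c : AB N := a * b ^ (n - 1) with hc
  have hcL : algebraMap (AB N) (LL N) c = y * algebraMap (AB N) (LL N) b ^ n := by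
    rw [hc, map_mul, map_pow, ← hab, div_mul_eq_mul_div, eq_div_iff hbL, mul_assoc, ← pow_succ,
      Nat.sub_add_cancel hn]
  have hcL0 : algebraMap (AB N) (LL N) c ≠ 0 := by
    rw [hcL]
    exact mul_ne_zero hy (pow_ne_zero _ hbL)
  have hc0 : c ≠ 0 := by
    intro h
    rw [h, map_zero] at hcL0
    exact hcL0 rfl
  have hbM : embL N (algebraMap (AB N) (LL N) b) ≠ 0 := (map_ne_zero _).mpr hbL
  -- the root of `c`
  set g : MM := h * embL N (algebraMap (AB N) (LL N) b) with hg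
  have hgn : g ^ n = algebraMap Hol MM (abToHol N c) := by
    rw [hg, mul_pow, hh, ← map_pow, ← map_mul, ← hcL, embL_algebraMap]
  have hg0 : g ≠ 0 := by
    intro h0
    rw [h0, zero_pow hn.ne', ← embL_algebraMap] at hgn
    exact (map_ne_zero (embL N)).mpr hcL0 hgn.symm
  -- orders at the points of the upper half plane
  have hord : ∀ τ : ℍ, ∃ m : ℕ,
      analyticOrderAt (fun z : ℂ => c.1 (ofComplex z)) (τ : ℂ) = ((n * m : ℕ) : ℕ∞) := by
    intro τ
    have h1 : (wexpH τ (abToHol N c)).order = ordAt τ c.1 := order_wexpH τ (abToHol N c)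
    have e1 : wexpM τ g ≠ 0 := (map_ne_zero _).mpr hg0
    have h2 : HahnSeries.ofPowerSeries ℤ ℂ (wexpH τ (abToHol N c)) = wexpM τ g ^ n := by
      rw [← wexpM_algebraMap, ← hgn, map_pow]
    have h3 : wexpH τ (abToHol N c) ≠ 0 := by
      intro h
      rw [h, map_zero] at h2
      exact pow_ne_zero _ e1 h2.symm
    obtain ⟨m, hm⟩ := exists_order_eq_of_dvd (n := n) (wexpH τ (abToHol N c)) h3 (by
      rw [h2, HahnSeries.order_pow]
      exact ⟨_, by rw [nsmul_eq_mul]⟩)
    exact ⟨m, by rw [← hm, h1]; rfl⟩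
  obtain ⟨h₀, hh₀, hpow⟩ := Fermat.Agent.Lib.HolRoot.exists_root hn.ne' c.1 c.2.mdiff hord
  -- orders at the cusps, at level `N * n`
  have hc'0 : U.liftAB N n c ≠ 0 := fun h0 => hc0 (U.liftAB_injective n (by rw [h0, map_zero]))
  have hordT : ∀ γ : SL(2, ℤ), (n : ℤ) ∣ (texpB (N * n) (γ • U.liftAB N n c)).order := by
    intro γ
    rw [← U.liftAB_smul, U.texpB_liftAB, order_qExpand]
    exact dvd_mul_right _ _
  have hAdm : IsAdm (N * n) h₀ := M.isAdm_of_pow_eq_AB hn hh₀ (U.liftAB N n c) hc'0 hpow hordT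
  set r : AB (N * n) := ⟨h₀, hAdm⟩ with hr
  have e : r ^ n = U.liftAB N n c := by
    apply Subtype.ext
    funext τ
    exact hpow τ
  have hrM : (embL (N * n) (algebraMap (AB (N * n)) (LL (N * n)) r)) ^ n = g ^ n := by
    rw [← map_pow, ← map_pow, e, embL_algebraMap, abToHol_liftAB, hgn]
  have hr0 : embL (N * n) (algebraMap (AB (N * n)) (LL (N * n)) r) ≠ 0 := by
    intro h0
    rw [h0, zero_pow hn.ne'] at hrM
    exact pow_ne_zero _ hg0 hrM.symm
  obtain ⟨z, hz⟩ := exists_zeta_mul_of_pow_eq (n := n) hr0 hrM.symm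
  refine ⟨algebraMap Kbar (LL (N * n)) ((zetaK n : Kbar) ^ z.val) *
    algebraMap (AB (N * n)) (LL (N * n)) r / U.liftLL N n (algebraMap (AB N) (LL N) b), ?_⟩
  rw [map_div₀, map_mul, AlgHom.commutes, ← hz, embL_liftLL, hg, mul_div_assoc, div_self hbM,
    mul_one]

end Root

section Main

variable {F₀ : IntermediateField ℚ (LaurentSeries ℚ)} {H : Subgroup SL(2, ℤ)} {N : ℕ} [NeZero N]

/-- Every place of `FB F₀` is seen by a point datum. -/
theorem coversPD (hL : IsLvl F₀ H N) : CoversPD (U.jB hL) (U.Psi hL) NV2.STT := by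
  intro v
  have := U.isFF1 hL
  rcases lt_or_ge (v.ord (U.jB hL)) 0 with hneg | hnn
  · obtain ⟨V, h⟩ := U2.pointDatum_infty hL
    refine ⟨_, _, _, V, Or.inr (Or.inr (Or.inr rfl)), adjoin_simple_inv _, h, ?_⟩
    rw [Place.ord_inv]
    omega
  · obtain ⟨c, hc | hc⟩ := exists_const_of_ord_nonneg v hnn
    · exact absurd (hc ▸ isAlgebraic_algebraMap c) (U.transcendental_jB hL)
    · by_cases h0 : c = 0
      · subst h0
        obtain ⟨V, h⟩ := U2.pointDatum_rho hL
        exact ⟨_, _, _, V, Or.inr (Or.inr (Or.inl rfl)), adjoin_simple_sub_const _ _, h, hc⟩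
      · by_cases h1 : c = 1728
        · subst h1
          obtain ⟨V, h⟩ := U2.pointDatum_I hL
          exact ⟨_, _, _, V, Or.inr (Or.inl rfl), adjoin_simple_sub_const _ _, h, hc⟩
        · obtain ⟨V, h⟩ := U2.pointDatum_generic hL c h0 h1
          exact ⟨_, _, _, V, Or.inl rfl, adjoin_simple_sub_const _ _, h, hc⟩

/-- **Converse of the multiplier construction.** -/
theorem isKum_of_isMult (hL : IsLvl F₀ H N) {n : ℕ} [NeZero n] {u : FB F₀}
    {ψ : Additive H →+ ZMod n} (h : M.IsMult (U.Psi hL) H n u ψ)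
    (hψ : ψ ∈ M.homPE H (ZMod n)) : M.IsKum (FB F₀) n u := by
  have hu : u ≠ 0 := h.ne_zero
  obtain ⟨h₀, h00, hpow, htr⟩ := h
  have hΨu : U.Psi hL u ≠ 0 := (map_ne_zero _).mpr hu
  obtain ⟨h₁, hh₁⟩ := exists_LL_root (U.Psi hL u) hΨu h₀ hpow
  have hL' : IsLvl F₀ H (N * n) := U.isLvl_level_mul n hL
  have hinj : Function.Injective (embL (N * n)) := (embL (N * n)).toRingHom.injective
  have hpow' : h₁ ^ n = U.Psi (U.isLvl_level_mul n hL) u := by
    apply hinj
    rw [map_pow, hh₁, hpow, real_level_mul n hL]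
    rfl
  have hfix : ∀ η ∈ NV2.peElts H NV2.STT, η • h₁ = h₁ := by
    rintro η ⟨hηH, σ, hσ, k, g, rfl⟩
    have h0 : ψ (Additive.ofMul ⟨_, hηH⟩) = 0 := M.mem_homPE'.1 hψ σ hσ k g hηH
    have h1 := htr ⟨_, hηH⟩
    rw [h0, zeta_pow_val_zero, map_one, one_mul] at h1
    apply hinj
    rw [embL_smul, hh₁]
    exact (inv_smul_eq_iff.1 h1).symm
  have := U.finiteIndex hL
  have := U.finiteDimensional (U.isLvl_level_mul n hL)
  exact dvd_ord_of_pow_eq_PD (U.transcendental_jB _) (U.isUniformization (U.isLvl_level_mul n hL))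
    (coversPD _) n u hu h₁ hpow' hfix

/-- The same with the `homPE` of the contract of block TOP. -/
theorem isKum_of_isMult' (hL : IsLvl F₀ H N) {n : ℕ} [NeZero n] {u : FB F₀}
    {ψ : Additive H →+ ZMod n} (h : M.IsMult (U.Psi hL) H n u ψ)
    (hψ : ∀ σ ∈ ({ModularGroup.S, ModularGroup.S * ModularGroup.T, ModularGroup.T} :
      Set SL(2, ℤ)), ∀ (k : ℕ) (g : SL(2, ℤ)) (h : g⁻¹ * σ ^ k * g ∈ H),
        ψ (Additive.ofMul ⟨_, h⟩) = 0) : M.IsKum (FB F₀) n u :=
  isKum_of_isMult hL h (M.mem_homPE'.2 hψ)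

end Main

end Fermat.Agent.S48.BB.T
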