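/-
S48, block BB/T.  The input `DiamondGen M` (hence `DiamondRat M`) of `T/Diamond.lean`, from block P:
`u_a ∘ γ = u_{a γ₀₀}` for `γ ∈ Γ₀(M)`.   (helper297)
-/
import Fermat.Agent.S48.BB.T.Diamond
import Fermat.Agent.S48.BB.P.LL
import Fermat.Agent.S48.BB.U.Gen

set_option autoImplicit false

namespace Fermat.Agent.S48.BB.T

open ModularCurve CongruenceSubgroup
open Fermat.Agent.S24 Fermat.Agent.GAL.Mult Fermat.Agent.S48.BB.U
open scoped MatrixGroups

theorem diamondGen (M : ℕ) [NeZero M] : DiamondGen M := by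
  intro γ hγ a g hg
  rw [realises_unique hg (P.realises_uaLL M 1 a), P.inv_smul_uaLL M 1 a γ hγ]
  exact P.realises_uaLL M 1 _

theorem diamondRat (M : ℕ) [NeZero M] : DiamondRat M := (diamondGen M).rat

end Fermat.Agent.S48.BB.T
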