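/-
S48, block BB/T (architect helper25).  FINAL GLUE of block T.
`heckeOp1 : E.HeckeOp1 (F1Q M 1) p` for `p` prime, `p ∤ M`, with `D = diamondAut hL p`, `Psi (D u) = σ_p⁻¹ • Psi u`.
-/
import Fermat.Agent.S48.BB.T.Main
import Fermat.Agent.S48.BB.E.HeckeOp1
import Fermat.Agent.S48.BB.H.Fam

set_option autoImplicit false

noncomputable section

namespace Fermat.Agent.S48.BB.T

open ModularCurve AlgebraicCurve
open Fermat.Agent.S24 Fermat.Agent.S24.B Fermat.Agent.GAL.Mult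
open scoped MatrixGroups

variable {M p : ℕ} [NeZero M] [NeZero p]

/-- **Deliverable of block T.** -/
def heckeOp1 (hL : IsLvl (F1Q M 1) (H1 M 1) (M * 1)) (hL' : IsLvl (F1Q M p) (H1 M p) (M * p))
    (hDR : DiamondRat M) (hp : p.Prime) (hpM : ¬ p ∣ M) : E.HeckeOp1 (F1Q M 1) p where
  T := heckeT hL hL' ((Nat.Prime.coprime_iff_not_dvd hp).2 hpM) (H.isHeckeFamily_T1 M hp hpM)
  D := diamondAut hL (p : ZMod M)
  qExpand_T := qExpand_heckeT hL hL' _ _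
  galF_D := fun σ u => (diamondAut_gal hL hDR (p : ZMod M) σ u).symm
  isKum := fun n u hu => dvd_ord_heckeT hL hL' _ _ (n : ℤ) u hu

theorem heckeOp1_D (hL : IsLvl (F1Q M 1) (H1 M 1) (M * 1))
    (hL' : IsLvl (F1Q M p) (H1 M p) (M * p)) (hDR : DiamondRat M) (hp : p.Prime) (hpM : ¬ p ∣ M) :
    (heckeOp1 hL hL' hDR hp hpM).D = diamondAut hL (p : ZMod M) := rfl

theorem Psi_heckeOp1_D (hL : IsLvl (F1Q M 1) (H1 M 1) (M * 1))
    (hL' : IsLvl (F1Q M p) (H1 M p) (M * p)) (hDR : DiamondRat M) (hp : p.Prime) (hpM : ¬ p ∣ M)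
    (u : FB (F1Q M 1)) :
    U.Psi hL ((heckeOp1 hL hL' hDR hp hpM).D u) = (H.sig M (p : ZMod M))⁻¹ • U.Psi hL u :=
  Psi_diamondAut hL _ u

theorem exists_heckeOp1 (hLvl : LvlStatement) (hDR : DiamondRat M) (hp : p.Prime)
    (hpM : ¬ p ∣ M) :
    ∃ Hk : E.HeckeOp1 (F1Q M 1) p, ∀ u : FB (F1Q M 1),
      U.Psi (hLvl M 1) (Hk.D u) = (H.sig M (p : ZMod M))⁻¹ • U.Psi (hLvl M 1) u :=
  ⟨heckeOp1 (hLvl M 1) (hLvl M p) hDR hp hpM, Psi_heckeOp1_D _ _ hDR hp hpM⟩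

end Fermat.Agent.S48.BB.T

end
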