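/-
S48, block BB/T (architect helper25).  **BLOCK T IS CLOSED**: `Glue.TStatement M` for every `M`.
-/
import Fermat.Agent.S48.BB.T.Final
import Fermat.Agent.S48.BB.T.DiamondP
import Fermat.Agent.S48.BB.Glue.Package

set_option autoImplicit false

namespace Fermat.Agent.S48.BB.T

theorem tStatement (M : ℕ) [NeZero M] : Glue.TStatement M := by
  intro p _ hp hpM
  exact ⟨heckeOp1 (W.isLvl_F1Q M 1) (W.isLvl_F1Q M p) (diamondRat M) hp hpM,
    Psi_heckeOp1_D _ _ (diamondRat M) hp hpM⟩

end Fermat.Agent.S48.BB.T
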